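import Mathlib

/-!
# Program G / F3 seam: integrality over `ℤ_p` versus the norm of `PadicAlgCl p`

* `norm_le_one_of_isIntegral`, `isIntegral_of_norm_le_one` : `IsIntegral ℤ_[p] y ↔ ‖y‖ ≤ 1`;
* `exists_isIntegral_of_norm_le` : `‖w / c ^ p - 1‖ ≤ ‖p‖` gives `w = c ^ p * (1 + p * a)` with `a`
  integral.
-/

set_option autoImplicit false
set_option linter.unusedSectionVars false

open Polynomial

namespace Fermat.Agent.TW.KumBreak

variable (p : ℕ) [hp : Fact p.Prime]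

/-- Elements of `ℚ̄_p` integral over `ℤ_p` have norm at most one. -/
theorem norm_le_one_of_isIntegral {y : PadicAlgCl p} (hy : IsIntegral ℤ_[p] y) : ‖y‖ ≤ 1 := by
  by_contra hlt
  push Not at hlt
  obtain ⟨P, hPm, hP⟩ := hy
  rw [← Polynomial.aeval_def] at hP
  have hsum := Polynomial.aeval_eq_sum_range (p := P) y
  rw [hP, Finset.sum_range_succ, hPm.coeff_natDegree, one_smul] at hsum
  have hyn : y ^ P.natDegree = - ∑ i ∈ Finset.range P.natDegree, P.coeff i • y ^ i :=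
    eq_neg_of_add_eq_zero_right hsum.symm
  have hlt' : ‖∑ i ∈ Finset.range P.natDegree, P.coeff i • y ^ i‖ < ‖y‖ ^ P.natDegree := by
    by_cases hn : P.natDegree = 0
    · rw [hn, Finset.range_zero, Finset.sum_empty, norm_zero, pow_zero]; exact one_pos
    have hne : (Finset.range P.natDegree).Nonempty :=
      ⟨0, Finset.mem_range.mpr (Nat.pos_of_ne_zero hn)⟩
    obtain ⟨i, hi, hle⟩ := IsUltrametricDist.exists_norm_finsetSum_le_of_nonempty hne
      (fun i => P.coeff i • y ^ i)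
    refine lt_of_le_of_lt hle ?_
    rw [Algebra.smul_def, norm_mul, norm_pow]
    have h1 : ‖algebraMap ℤ_[p] (PadicAlgCl p) (P.coeff i)‖ ≤ 1 := by
      have : algebraMap ℤ_[p] (PadicAlgCl p) (P.coeff i) =
          algebraMap ℚ_[p] (PadicAlgCl p) ((P.coeff i : ℤ_[p]) : ℚ_[p]) := rfl
      rw [this, norm_algebraMap']
      exact (P.coeff i).2
    have h2 : ‖y‖ ^ i < ‖y‖ ^ P.natDegree := pow_lt_pow_right₀ hlt (Finset.mem_range.mp hi)
    calc ‖algebraMap ℤ_[p] (PadicAlgCl p) (P.coeff i)‖ * ‖y‖ ^ i ≤ 1 * ‖y‖ ^ i :=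
          mul_le_mul_of_nonneg_right h1 (pow_nonneg (norm_nonneg _) _)
      _ = ‖y‖ ^ i := one_mul _
      _ < ‖y‖ ^ P.natDegree := h2
  rw [← norm_pow, hyn, norm_neg] at hlt'
  exact lt_irrefl _ hlt'

/-- Elements of `ℚ̄_p` of norm at most one are integral over `ℤ_p`. -/
theorem isIntegral_of_norm_le_one {y : PadicAlgCl p} (hy : ‖y‖ ≤ 1) : IsIntegral ℤ_[p] y := by
  have halg : IsIntegral ℚ_[p] y := (PadicAlgCl.isAlgebraic p).isAlgebraic y |>.isIntegral
  have hmonic : (minpoly ℚ_[p] y).Monic := minpoly.monic halg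
  have hsv : spectralValue (minpoly ℚ_[p] y) ≤ 1 := by
    have : spectralNorm ℚ_[p] (PadicAlgCl p) y = ‖y‖ := PadicAlgCl.spectralNorm_eq p y
    rw [spectralNorm] at this
    rw [this]
    exact hy
  have hcoeff := (spectralValue_le_one_iff hmonic).mp hsv
  have hlift : minpoly ℚ_[p] y ∈ Polynomial.lifts (algebraMap ℤ_[p] ℚ_[p]) := by
    rw [Polynomial.lifts_iff_coeff_lifts]
    intro n
    exact ⟨⟨(minpoly ℚ_[p] y).coeff n, hcoeff n⟩, rfl⟩
  obtain ⟨g, hg, -, hgm⟩ := Polynomial.lifts_and_degree_eq_and_monic hlift hmonic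
  refine ⟨g, hgm, ?_⟩
  have h0 : Polynomial.aeval y (minpoly ℚ_[p] y) = 0 := minpoly.aeval ℚ_[p] y
  rw [← hg, Polynomial.aeval_def, Polynomial.eval₂_map] at h0
  exact h0

/-- The norm form of "allowed" is the product form. -/
theorem exists_isIntegral_of_norm_le {w c : PadicAlgCl p} (hc : c ≠ 0)
    (h : ‖w / c ^ p - 1‖ ≤ ‖(p : PadicAlgCl p)‖) :
    ∃ a : PadicAlgCl p, IsIntegral ℤ_[p] a ∧ a = (w / c ^ p - 1) / (p : PadicAlgCl p) ∧
      w = c ^ p * (1 + (p : PadicAlgCl p) * a) := by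
  have hp0 : (p : PadicAlgCl p) ≠ 0 := Nat.cast_ne_zero.mpr hp.out.ne_zero
  have hnp : 0 < ‖(p : PadicAlgCl p)‖ := norm_pos_iff.mpr hp0
  refine ⟨(w / c ^ p - 1) / (p : PadicAlgCl p), isIntegral_of_norm_le_one p ?_, rfl, ?_⟩
  · rw [norm_div]
    exact (div_le_one hnp).mpr h
  · have hcp : c ^ p ≠ 0 := pow_ne_zero _ hc
    field_simp
    ring

end Fermat.Agent.TW.KumBreak
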