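import Mathlib

/-!
# Program G / F3 seam (A5): moving a Kummer generator into a normal subextension

`Ω / k` any field extension, `L, F` intermediate fields, `L / k` finite and normal.  If `β ∈ F ⊔ L`
is an eigenvector of `Gal(Ω / F)` with eigenvalues `σ β / β ∈ F ⊓ L`, then there is a nonzero
`β₀ ∈ L` with the same eigenvalues (Lagrange resolvent over the image of `Gal(Ω / F)` in
`Gal(L / k)`).
-/

set_option autoImplicit false

namespace Fermat.Agent.TW.KumBreak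

open IntermediateField

variable {k Ω : Type*} [Field k] [Field Ω] [Algebra k Ω]

theorem exists_eigen_in_normal (L F : IntermediateField k Ω) [FiniteDimensional k L] [Normal k L]
    {β : Ω} (hβ0 : β ≠ 0) (hβFL : β ∈ F ⊔ L)
    (hz : ∀ σ ∈ F.fixingSubgroup, σ β / β ∈ F ∧ σ β / β ∈ L) :
    ∃ β₀ : Ω, β₀ ≠ 0 ∧ β₀ ∈ L ∧ ∀ σ ∈ F.fixingSubgroup, σ β₀ * β = σ β * β₀ := by
  classical
  set r : (Ω ≃ₐ[k] Ω) →* (L ≃ₐ[k] L) := AlgEquiv.restrictNormalHom L with hr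
  have hrapp : ∀ (σ : Ω ≃ₐ[k] Ω) (x : L), ((r σ x : L) : Ω) = σ (x : Ω) := fun σ x =>
    AlgEquiv.restrictNormalHom_apply L σ x
  -- elements of `Γ_F` with the same restriction to `L` agree on `β`
  have hwd : ∀ σ ∈ F.fixingSubgroup, ∀ σ' ∈ F.fixingSubgroup, r σ = r σ' → σ β = σ' β := by
    intro σ hσ σ' hσ' hrr
    have hfix : σ'⁻¹ * σ ∈ (F ⊔ L).fixingSubgroup := by
      rw [fixingSubgroup_sup]
      refine Subgroup.mem_inf.mpr ⟨Subgroup.mul_mem _ (Subgroup.inv_mem _ hσ') hσ, ?_⟩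
      rw [IntermediateField.mem_fixingSubgroup_iff]
      intro x hx
      have h1 : r (σ'⁻¹ * σ) = 1 := by rw [map_mul, map_inv, hrr, inv_mul_cancel]
      have h2 := hrapp (σ'⁻¹ * σ) ⟨x, hx⟩
      rw [h1] at h2
      exact h2.symm
    have h3 := (IntermediateField.mem_fixingSubgroup_iff _ _).mp hfix β hβFL
    rw [AlgEquiv.mul_apply, AlgEquiv.aut_inv] at h3
    have := congrArg σ' h3
    rw [AlgEquiv.apply_symm_apply] at this
    exact this
  -- the coefficients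
  have hzne : ∀ σ : Ω ≃ₐ[k] Ω, σ β / β ≠ 0 := fun σ =>
    div_ne_zero ((map_ne_zero σ).mpr hβ0) hβ0
  let c : (L ≃ₐ[k] L) → L := fun γ =>
    if h : ∃ σ ∈ F.fixingSubgroup, r σ = γ then
      ⟨(h.choose β / β)⁻¹, L.inv_mem (hz h.choose h.choose_spec.1).2⟩
    else 0
  have hc : ∀ σ ∈ F.fixingSubgroup, ((c (r σ) : L) : Ω) = (σ β / β)⁻¹ := by
    intro σ hσ
    have h : ∃ σ' ∈ F.fixingSubgroup, r σ' = r σ := ⟨σ, hσ, rfl⟩
    simp only [c, dif_pos h]
    rw [hwd σ hσ h.choose h.choose_spec.1 h.choose_spec.2.symm]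
  have hc0 : ∀ γ : L ≃ₐ[k] L, (¬ ∃ σ ∈ F.fixingSubgroup, r σ = γ) → c γ = 0 := by
    intro γ h
    simp only [c, dif_neg h]
  have hcF : ∀ γ : L ≃ₐ[k] L, ((c γ : L) : Ω) ∈ F := by
    intro γ
    by_cases h : ∃ σ ∈ F.fixingSubgroup, r σ = γ
    · obtain ⟨σ, hσ, rfl⟩ := h
      rw [hc σ hσ]
      exact F.inv_mem (hz σ hσ).1
    · rw [hc0 γ h]; exact F.zero_mem
  -- the resolvent is a nonzero linear map
  have hli : LinearIndependent L (fun γ : L ≃ₐ[k] L => ((γ : L →ₐ[k] L).toLinearMap)) := by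
    have := linearIndependent_toLinearMap k L L
    exact this.comp (fun γ : L ≃ₐ[k] L => (γ : L →ₐ[k] L)) (fun γ γ' h => by
      ext x
      exact congrArg Subtype.val (DFunLike.congr_fun h x))
  have hc1 : c 1 ≠ 0 := by
    have h1 := hc 1 (one_mem _)
    rw [map_one] at h1
    intro h0
    rw [h0] at h1
    simp only [AlgEquiv.one_apply, ZeroMemClass.coe_zero] at h1
    rw [div_self hβ0, inv_one] at h1
    exact zero_ne_one h1
  have hT : (∑ γ : L ≃ₐ[k] L, c γ • ((γ : L →ₐ[k] L).toLinearMap)) ≠ 0 := by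
    intro h0
    exact hc1 (Fintype.linearIndependent_iff.mp hli c h0 1)
  obtain ⟨x, hx⟩ : ∃ x : L, (∑ γ : L ≃ₐ[k] L, c γ • ((γ : L →ₐ[k] L).toLinearMap)) x ≠ 0 := by
    by_contra hcon
    push Not at hcon
    exact hT (LinearMap.ext hcon)
  have hTx : (∑ γ : L ≃ₐ[k] L, c γ • ((γ : L →ₐ[k] L).toLinearMap)) x =
      ∑ γ : L ≃ₐ[k] L, c γ * γ x := by
    simp [LinearMap.sum_apply]
  rw [hTx] at hx
  refine ⟨((∑ γ : L ≃ₐ[k] L, c γ * γ x : L) : Ω), ?_, Subtype.coe_prop _, ?_⟩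
  · intro h0
    exact hx (Subtype.ext h0)
  · intro σ hσ
    -- `σ` acts on `L` through `δ = r σ`
    have h1 : σ ((∑ γ : L ≃ₐ[k] L, c γ * γ x : L) : Ω) =
        ((r σ (∑ γ : L ≃ₐ[k] L, c γ * γ x) : L) : Ω) := (hrapp σ _).symm
    have hfixc : ∀ γ : L ≃ₐ[k] L, r σ (c γ) = c γ := by
      intro γ
      apply Subtype.ext
      rw [hrapp]
      exact (IntermediateField.mem_fixingSubgroup_iff _ _).mp hσ _ (hcF γ)
    have h2 : r σ (∑ γ : L ≃ₐ[k] L, c γ * γ x) = ∑ γ : L ≃ₐ[k] L, c γ * (r σ * γ) x := by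
      rw [map_sum]
      refine Finset.sum_congr rfl fun γ _ => ?_
      rw [map_mul, hfixc, AlgEquiv.mul_apply]
    -- reindex
    have h3 : ∑ γ : L ≃ₐ[k] L, c γ * (r σ * γ) x =
        ∑ γ : L ≃ₐ[k] L, c ((r σ)⁻¹ * γ) * γ x := by
      symm
      rw [← Equiv.sum_comp (Equiv.mulLeft (r σ))]
      refine Finset.sum_congr rfl fun γ _ => ?_
      simp
    -- the coefficient identity
    have h4 : ∀ γ : L ≃ₐ[k] L, ((c ((r σ)⁻¹ * γ) : L) : Ω) = (σ β / β) * ((c γ : L) : Ω) := by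
      intro γ
      by_cases h : ∃ σ' ∈ F.fixingSubgroup, r σ' = γ
      · obtain ⟨σ', hσ', rfl⟩ := h
        have h5 : (r σ)⁻¹ * r σ' = r (σ⁻¹ * σ') := by rw [map_mul, map_inv]
        rw [h5, hc _ (Subgroup.mul_mem _ (Subgroup.inv_mem _ hσ) hσ'), hc σ' hσ', AlgEquiv.mul_apply]
        -- σ⁻¹ (σ' β) / β = (σ' β / β) * (σ β / β)⁻¹
        have h6 : σ' β = (σ' β / β) * β := by field_simp
        have h7 : σ⁻¹ ((σ' β / β) * β) = (σ' β / β) * σ⁻¹ β := by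
          rw [map_mul]
          congr 1
          exact (IntermediateField.mem_fixingSubgroup_iff _ _).mp (Subgroup.inv_mem _ hσ) _ (hz σ' hσ').1
        have h8 : σ⁻¹ β = (σ β / β)⁻¹ * β := by
          have h9 : β = σ⁻¹ ((σ β / β) * β) := by
            have : (σ β / β) * β = σ β := by field_simp
            rw [this, AlgEquiv.aut_inv, AlgEquiv.symm_apply_apply]
          have h10 : σ⁻¹ ((σ β / β) * β) = (σ β / β) * σ⁻¹ β := by
            rw [map_mul]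
            congr 1
            exact (IntermediateField.mem_fixingSubgroup_iff _ _).mp (Subgroup.inv_mem _ hσ) _ (hz σ hσ).1
          rw [h10] at h9
          rw [eq_inv_mul_iff_mul_eq₀ (hzne σ)]
          exact h9.symm
        rw [h6, h7, h8]
        have hne := hzne σ
        have hne' := hzne σ'
        field_simp
      · have h' : ¬ ∃ σ' ∈ F.fixingSubgroup, r σ' = (r σ)⁻¹ * γ := by
          rintro ⟨σ', hσ', hσ'r⟩
          exact h ⟨σ * σ', Subgroup.mul_mem _ hσ hσ', by rw [map_mul, hσ'r, mul_inv_cancel_left]⟩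
        rw [hc0 _ h', hc0 _ h]; simp
    rw [h1, h2, h3]
    have h5 : ((∑ γ : L ≃ₐ[k] L, c ((r σ)⁻¹ * γ) * γ x : L) : Ω) =
        (σ β / β) * ((∑ γ : L ≃ₐ[k] L, c γ * γ x : L) : Ω) := by
      push_cast
      rw [Finset.mul_sum]
      refine Finset.sum_congr rfl fun γ _ => ?_
      rw [h4]; ring
    rw [h5]
    field_simp

/-- **Seam, step 1.**  `Ω / k` Galois (e.g. an algebraic closure in characteristic `0`), `L / k`
finite normal, `β ∈ F ⊔ L` nonzero with `σ β / β ∈ F ⊓ L` of order dividing `p` for all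
`σ ∈ Gal(Ω / F)`.  Then there is `β₀ ∈ L`, nonzero, with `β₀ ^ p ∈ F` (hence in `F ⊓ L`) and
`β / β₀ ∈ F`: the Kummer generator can be moved into `L`. -/
theorem exists_kummer_generator_in_normal [IsGalois k Ω] (L F : IntermediateField k Ω)
    [FiniteDimensional k L] [Normal k L] {p : ℕ}
    {β : Ω} (hβ0 : β ≠ 0) (hβFL : β ∈ F ⊔ L)
    (hz : ∀ σ ∈ F.fixingSubgroup, σ β / β ∈ F ∧ σ β / β ∈ L)
    (hzp : ∀ σ ∈ F.fixingSubgroup, (σ β / β) ^ p = 1) :
    ∃ β₀ : Ω, β₀ ≠ 0 ∧ β₀ ∈ L ∧ β₀ ^ p ∈ F ∧ β / β₀ ∈ F := by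
  obtain ⟨β₀, hβ₀0, hβ₀L, hβ₀⟩ := exists_eigen_in_normal L F hβ0 hβFL hz
  have hfix : ∀ x : Ω, (∀ σ ∈ F.fixingSubgroup, σ x = x) → x ∈ F := by
    intro x hx
    rw [← InfiniteGalois.fixedField_fixingSubgroup F, IntermediateField.mem_fixedField_iff]
    exact hx
  have hσβ₀ : ∀ σ ∈ F.fixingSubgroup, σ β₀ = (σ β / β) * β₀ := by
    intro σ hσ
    have := hβ₀ σ hσ
    field_simp
    exact this
  refine ⟨β₀, hβ₀0, hβ₀L, hfix _ ?_, hfix _ ?_⟩
  · intro σ hσ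
    rw [map_pow, hσβ₀ σ hσ, mul_pow, hzp σ hσ, one_mul]
  · intro σ hσ
    rw [map_div₀, hσβ₀ σ hσ]
    have h1 : σ β ≠ 0 := (map_ne_zero σ).mpr hβ0
    field_simp

end Fermat.Agent.TW.KumBreak
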