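import Fermat.Agent.TW.KumBreak.SeamBase
import Fermat.Agent.TW.KumBreak.Resolvent
import Fermat.Agent.TW.KumBreak.NormInt

/-!
# Program G / F3 seam (A5), step (S4): the field form (A5-field) in `Ω = PadicAlgCl p`

`L ≤ Ω` finite Galois over `ℚ_p` with `FontainePAbove ℤ_p ℚ_p L p p (p - 1)`, `F ≤ Ω` any
intermediate field, `ζ_p ∈ F ⊓ L`, `β ∈ (F ⊔ L)^×` with `β ^ p ∈ F`.  Then there is `c ∈ F^×`
with `‖β ^ p / c ^ p - 1‖ ≤ ‖p‖`.
-/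

set_option autoImplicit false
set_option linter.unusedSectionVars false
set_option linter.style.haveILetI false

open IsLocalRing Module Polynomial

namespace Fermat.Agent.TW.KumBreak

open Fermat.Agent.CFT Fermat.Agent.TW.Ram IntermediateField

variable (p : ℕ) [hp : Fact p.Prime]

/-- **(A5-field).** -/
theorem allowed_of_flat_field (L : IntermediateField ℚ_[p] (PadicAlgCl p))
    [FiniteDimensional ℚ_[p] L] [IsGalois ℚ_[p] L]
    (hP : FontainePAbove ℤ_[p] ℚ_[p] L ((p : ℕ) : ℤ_[p]) p (p - 1))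
    (F : IntermediateField ℚ_[p] (PadicAlgCl p)) {ζ : PadicAlgCl p} (hζ : IsPrimitiveRoot ζ p)
    (hζF : ζ ∈ F) (hζL : ζ ∈ L) {β : PadicAlgCl p} (hβ : β ≠ 0) (hβp : β ^ p ∈ F)
    (hβFL : β ∈ F ⊔ L) :
    ∃ c ∈ F, c ≠ 0 ∧ ‖β ^ p / c ^ p - 1‖ ≤ ‖(p : PadicAlgCl p)‖ := by
  have hpp : p.Prime := hp.out
  have : NeZero p := ⟨hpp.ne_zero⟩
  -- the ratios `σ β / β`, `σ ∈ Gal(Ω/F)`, are `p`-th roots of unity
  have hzp : ∀ σ ∈ F.fixingSubgroup, (σ β / β) ^ p = 1 := by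
    intro σ hσ
    rw [div_pow, ← map_pow, (IntermediateField.mem_fixingSubgroup_iff _ _).mp hσ _ hβp]
    exact div_self (pow_ne_zero _ hβ)
  have hz : ∀ σ ∈ F.fixingSubgroup, σ β / β ∈ F ∧ σ β / β ∈ L := by
    intro σ hσ
    obtain ⟨i, -, hi⟩ := hζ.eq_pow_of_pow_eq_one (hzp σ hσ)
    rw [← hi]
    exact ⟨pow_mem hζF i, pow_mem hζL i⟩
  obtain ⟨β₀, hβ₀0, hβ₀L, hβ₀pF, hquot⟩ :=
    exists_kummer_generator_in_normal L F hβ hβFL hz hzp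
  -- (S3) over `(ℤ_p, ℚ_p, L)` with `E := F ∩ L`
  have hζ' : IsPrimitiveRoot (⟨ζ, hζL⟩ : L) p :=
    IsPrimitiveRoot.of_map_of_injective (f := algebraMap L (PadicAlgCl p)) hζ
      (algebraMap L (PadicAlgCl p)).injective
  have hβ₀' : (⟨β₀, hβ₀L⟩ : L) ≠ 0 := fun h => hβ₀0 (congrArg Subtype.val h)
  obtain ⟨c, a, hcE, hc0, haE, haint, hca⟩ := allowed_of_pow_mem ℤ_[p] ℚ_[p] L hpp
    PadicInt.irreducible_p hP (F.comap L.val) (ζ := ⟨ζ, hζL⟩) hζ' hζF (β₀ := ⟨β₀, hβ₀L⟩) hβ₀'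
    (by
      change ((⟨β₀, hβ₀L⟩ : L) ^ p : L).1 ∈ F
      exact hβ₀pF)
  have hcF : (c : PadicAlgCl p) ∈ F := hcE
  have hc0' : (c : PadicAlgCl p) ≠ 0 := fun h => hc0 (Subtype.ext h)
  have haint' : IsIntegral ℤ_[p] (a : PadicAlgCl p) := by
    haveI : IsScalarTower ℤ_[p] L (PadicAlgCl p) := IsScalarTower.of_algebraMap_eq (fun x => rfl)
    exact haint.map (IsScalarTower.toAlgHom ℤ_[p] L (PadicAlgCl p))
  have hca' : β₀ ^ p = (c : PadicAlgCl p) ^ p * (1 + (p : PadicAlgCl p) * (a : PadicAlgCl p)) := by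
    have := congrArg (Subtype.val : L → PadicAlgCl p) hca
    simpa using this
  have hq0 : β / β₀ ≠ 0 := div_ne_zero hβ hβ₀0
  refine ⟨β / β₀ * (c : PadicAlgCl p), F.mul_mem hquot hcF, mul_ne_zero hq0 hc0', ?_⟩
  have hkey : β ^ p / (β / β₀ * (c : PadicAlgCl p)) ^ p - 1 =
      (p : PadicAlgCl p) * (a : PadicAlgCl p) := by
    have h1 : β ^ p = (β / β₀) ^ p * β₀ ^ p := by
      rw [← mul_pow, div_mul_cancel₀ _ hβ₀0]
    rw [h1, hca', mul_pow]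
    have h2 : (β / β₀) ^ p * (c : PadicAlgCl p) ^ p ≠ 0 :=
      mul_ne_zero (pow_ne_zero _ hq0) (pow_ne_zero _ hc0')
    rw [← mul_assoc, mul_div_cancel_left₀ _ h2]
    ring
  rw [hkey, norm_mul]
  calc ‖(p : PadicAlgCl p)‖ * ‖(a : PadicAlgCl p)‖ ≤ ‖(p : PadicAlgCl p)‖ * 1 :=
        mul_le_mul_of_nonneg_left (norm_le_one_of_isIntegral p haint') (norm_nonneg _)
    _ = ‖(p : PadicAlgCl p)‖ := mul_one _

end Fermat.Agent.TW.KumBreak
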