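import Fermat.Agent.TW.KumBreak.Improve

/-!
# Program G / F3-(f1): the level dichotomy and descent of "allowed" classes

`A` a discrete valuation ring, residue field perfect of characteristic `p`, `e₁ = v p`.

* `exists_level` (LEVEL): for a unit `w` and `N ≤ e₁`, either `w c^p ∈ 1 + 𝔪^N` for some unit `c`,
  or `w c^p - 1` has exact valuation `j` with `1 ≤ j < N`, `p ∤ j`.
* `Allowed p w` : `w ∈ (1 + p A) · (Frac A)^{× p}`, in the form
  `∃ c d a : A, c ≠ 0 ∧ d ≠ 0 ∧ w * c ^ p = d ^ p * (1 + p * a)`.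
* `allowed_descent` (DESC): if `A ⊆ A''` is an extension of discrete valuation rings with
  ramification index `e''` prime to `p` (e.g. unramified), then `w ∈ A` is allowed over `A` as soon
  as it is allowed over `A''`.
-/

set_option autoImplicit false

namespace Fermat.Agent.TW.KumBreak

open IsDiscreteValuationRing

/-- `w ∈ (1 + p A) · (Frac A)^{× p}`. -/
def Allowed {A : Type*} [CommRing A] (p : ℕ) (w : A) : Prop :=
  ∃ c d a : A, c ≠ 0 ∧ d ≠ 0 ∧ w * c ^ p = d ^ p * (1 + p * a)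

section Level

variable {A : Type*} [CommRing A] [IsDomain A] [IsDiscreteValuationRing A] {p : ℕ}

/-- (LEVEL) -/
theorem exists_level (hp : p.Prime)
    (hperf : ∀ a : A, ∃ t : A, 1 ≤ addVal A (a - t ^ p))
    {e₁ : ℕ} (he₁ : addVal A (p : A) = e₁) {w : A} (hw : IsUnit w) (N : ℕ) (hN : N ≤ e₁) :
    (∃ c : Aˣ, (N : ℕ∞) ≤ addVal A (w * (c : A) ^ p - 1)) ∨
      (∃ (c : Aˣ) (j : ℕ), 1 ≤ j ∧ j < N ∧ ¬ p ∣ j ∧ addVal A (w * (c : A) ^ p - 1) = j) := by
  have hp2 := hp.two_le
  induction N with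
  | zero => exact Or.inl ⟨1, by simp⟩
  | succ N ih =>
    rcases Nat.eq_zero_or_pos N with rfl | hN1
    · obtain ⟨c, hc⟩ := exists_unit_pow_mul_sub_one hp hperf hw
      exact Or.inl ⟨c, by exact_mod_cast hc⟩
    rcases ih (by omega) with ⟨c, hc⟩ | ⟨c, j, hj1, hjN, hpj, hj⟩
    · by_cases hdone : ((N + 1 : ℕ) : ℕ∞) ≤ addVal A (w * (c : A) ^ p - 1)
      · exact Or.inl ⟨c, hdone⟩
      have hvx : addVal A (w * (c : A) ^ p - 1) = N := by
        refine le_antisymm ?_ hc
        by_contra hcon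
        rw [not_le] at hcon
        exact hdone (by
          push_cast
          exact Order.add_one_le_of_lt hcon)
      by_cases hpN : p ∣ N
      · obtain ⟨c', hc'⟩ := improve_of_dvd hp hperf he₁ hvx hpN hN1 (by
          have h1 : (p - 1) * N < (p - 1) * e₁ := Nat.mul_lt_mul_of_pos_left (by omega) (by omega)
          have h2 : (p - 1) * e₁ ≤ p * e₁ := Nat.mul_le_mul_right _ (by omega)
          omega)
        refine Or.inl ⟨c * c', ?_⟩
        have : w * ((c * c' : Aˣ) : A) ^ p - 1 = (1 + (w * (c : A) ^ p - 1)) * (c' : A) ^ p - 1 := by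
          push_cast; ring
        rw [this]; exact hc'
      · exact Or.inr ⟨c, N, hN1, by omega, hpN, hvx⟩
    · exact Or.inr ⟨c, j, hj1, by omega, hpj, hj⟩

end Level

section Descent

variable {A A'' : Type*} [CommRing A] [IsDomain A] [IsDiscreteValuationRing A]
  [CommRing A''] [IsDomain A''] [IsDiscreteValuationRing A''] [Algebra A A''] {p : ℕ}

/-- (DESC) Descent of `Allowed` along an extension of DVRs with ramification index prime to `p`. -/
theorem allowed_descent (hp : p.Prime) {e'' : ℕ} (he : ¬ p ∣ e'')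
    (hram : ∀ a : A, addVal A'' (algebraMap A A'' a) = e'' * addVal A a)
    (hpA : 1 ≤ addVal A (p : A)) (hp0 : (p : A) ≠ 0)
    (hperf : ∀ a : A, ∃ t : A, 1 ≤ addVal A (a - t ^ p))
    {w : A} (hw : w ≠ 0) (h'' : Allowed p (algebraMap A A'' w)) : Allowed p w := by
  have hp2 := hp.two_le
  have he0 : e'' ≠ 0 := by rintro rfl; exact he (dvd_zero p)
  have hinj : Function.Injective (algebraMap A A'') := by
    rw [injective_iff_map_eq_zero]
    intro a ha
    have := hram a
    rw [ha, addVal_zero] at this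
    by_contra hne
    obtain ⟨n, hn⟩ := addVal_natCast_of_ne_zero hne
    rw [hn, ← Nat.cast_mul] at this
    exact absurd this.symm (ENat.natCast_ne_top _)
  obtain ⟨e₁, he₁⟩ := addVal_natCast_of_ne_zero hp0
  have he₁1 : 1 ≤ e₁ := by rw [he₁] at hpA; exact_mod_cast hpA
  have hvp'' : addVal A'' (p : A'') = ((e'' * e₁ : ℕ) : ℕ∞) := by
    have : (p : A'') = algebraMap A A'' (p : A) := by simp
    rw [this, hram, he₁]; push_cast; rfl
  obtain ⟨c, d, a, hc, hd, hcd⟩ := h''
  -- `1 + p a` is a unit of `A''`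
  have hunit : addVal A'' (1 + (p : A'') * a) = 0 := by
    rw [(addVal A'').map_add_eq_of_lt_left, addVal_one]
    rw [addVal_one, addVal_mul, hvp'']
    refine lt_of_lt_of_le ?_ le_self_add
    exact_mod_cast Nat.mul_pos (Nat.pos_of_ne_zero he0) he₁1
  -- `p ∣ v w`
  obtain ⟨c₀, hc₀⟩ := addVal_natCast_of_ne_zero hw
  obtain ⟨vc, hvc⟩ := addVal_natCast_of_ne_zero hc
  obtain ⟨vd, hvd⟩ := addVal_natCast_of_ne_zero hd
  have hval : e'' * c₀ + p * vc = p * vd := by
    have := congrArg (addVal A'') hcd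
    rw [addVal_mul, addVal_mul, addVal_pow, addVal_pow, hram, hc₀, hvc, hvd, hunit, add_zero] at this
    simp only [nsmul_eq_mul] at this
    exact_mod_cast this
  have hpc₀ : p ∣ c₀ := by
    have h1 : p ∣ e'' * c₀ := by
      have : e'' * c₀ = p * vd - p * vc := by omega
      rw [this, ← Nat.mul_sub]
      exact dvd_mul_right _ _
    rcases (Nat.Prime.dvd_mul hp).mp h1 with h | h
    · exact absurd h he
    · exact h
  obtain ⟨k, rfl⟩ := hpc₀
  obtain ⟨π, hπ⟩ := exists_irreducible A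
  obtain ⟨m, u, hu⟩ := eq_unit_mul_pow_irreducible hw hπ
  have hm : m = p * k := by
    have := addVal_def w u hπ m hu
    rw [hc₀] at this; exact_mod_cast this.symm
  subst hm
  -- reduce to the unit `u`: `u = q^p (1 + p a)` in `A''` with `q` a unit
  have hπ'' : algebraMap A A'' π ≠ 0 := fun h0 => hπ.ne_zero (hinj (by rw [h0, map_zero]))
  obtain ⟨c', hc'⟩ : ∃ c' : A'', c' = c * algebraMap A A'' π ^ k := ⟨_, rfl⟩
  have hc'0 : c' ≠ 0 := by rw [hc']; exact mul_ne_zero hc (pow_ne_zero _ hπ'')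
  have hcd' : algebraMap A A'' (u : A) * c' ^ p = d ^ p * (1 + (p : A'') * a) := by
    rw [← hcd, hu, hc', map_mul, map_pow]; ring
  have hvcd : addVal A'' c' = addVal A'' d := by
    have := congrArg (addVal A'') hcd'
    rw [addVal_mul, addVal_mul, addVal_pow, addVal_pow, hunit, add_zero, hram,
      addVal_eq_zero_of_unit, mul_zero, zero_add] at this
    obtain ⟨n1, hn1⟩ := addVal_natCast_of_ne_zero hc'0
    rw [hn1, hvd] at this ⊢
    simp only [nsmul_eq_mul] at this
    have h1 : p * n1 = p * vd := by exact_mod_cast this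
    rw [Nat.eq_of_mul_eq_mul_left hp.pos h1]
  obtain ⟨q, hq⟩ : c' ∣ d := by rw [← addVal_le_iff_dvd, hvcd]
  have hqu : addVal A'' q = 0 := by
    have := hvcd
    rw [hq, addVal_mul] at this
    obtain ⟨n1, hn1⟩ := addVal_natCast_of_ne_zero hc'0
    rw [hn1] at this
    have h1 : (n1 : ℕ∞) + 0 = n1 + addVal A'' q := by rw [add_zero]; exact this
    exact ((ENat.add_right_injective_of_ne_top (ENat.natCast_ne_top n1)) h1).symm
  have hu'' : algebraMap A A'' (u : A) = q ^ p * (1 + (p : A'') * a) := by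
    have h1 : c' ^ p * algebraMap A A'' (u : A) = c' ^ p * (q ^ p * (1 + (p : A'') * a)) := by
      rw [mul_comm, hcd', hq]; ring
    exact mul_left_cancel₀ (pow_ne_zero p hc'0) h1
  -- the level dichotomy over `A`
  rcases exists_level hp hperf he₁ u.isUnit e₁ le_rfl with ⟨c₁, hc₁⟩ | ⟨c₁, j, hj1, hjlt, hpj, hj⟩
  · rw [← he₁, addVal_le_iff_dvd] at hc₁
    obtain ⟨a₁, ha₁⟩ := hc₁
    refine ⟨c₁, π ^ k, a₁, c₁.ne_zero, pow_ne_zero k hπ.ne_zero, ?_⟩
    rw [hu, ← pow_mul, mul_comm k p]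
    linear_combination π ^ (p * k) * ha₁
  · exfalso
    obtain ⟨x, hx⟩ : ∃ x : A, x = (u : A) * (c₁ : A) ^ p - 1 := ⟨_, rfl⟩
    rw [← hx] at hj
    obtain ⟨Q, hQ⟩ : ∃ Q : A'', Q = q * algebraMap A A'' (c₁ : A) := ⟨_, rfl⟩
    have hQx : Q ^ p * (1 + (p : A'') * a) = 1 + algebraMap A A'' x := by
      rw [hQ, hx, map_sub, map_mul, map_pow, map_one, hu'']; ring
    have hvx'' : addVal A'' (algebraMap A A'' x) = ((e'' * j : ℕ) : ℕ∞) := by
      rw [hram, hj]; push_cast; rfl
    have hej : e'' * j < e'' * e₁ := Nat.mul_lt_mul_of_pos_left hjlt (Nat.pos_of_ne_zero he0)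
    obtain ⟨y, hy⟩ : ∃ y : A'', y = Q - 1 := ⟨_, rfl⟩
    obtain ⟨r, hr⟩ := exists_add_pow_prime_eq hp y 1
    have hQ1 : y + 1 = Q := by rw [hy]; ring
    rw [hQ1, one_pow, mul_one] at hr
    -- `x = y^p + rest` with `v rest ≥ e'' e₁`
    have hvrest : ((e'' * e₁ : ℕ) : ℕ∞) ≤ addVal A'' (algebraMap A A'' x - y ^ p) := by
      have hrest' : algebraMap A A'' x - y ^ p =
          (p : A'') * y * r + (p : A'') * a * Q ^ p := by
        have : algebraMap A A'' x = Q ^ p * (1 + (p : A'') * a) - 1 := by rw [hQx]; ring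
        rw [this, hr]; ring
      rw [hrest']
      refine le_trans (le_min ?_ ?_) ((addVal A'').map_add _ _)
      · rw [addVal_mul, addVal_mul, hvp'']
        exact le_self_add.trans le_self_add
      · rw [addVal_mul, addVal_mul, hvp'']
        exact le_self_add.trans le_self_add
    have hvyp : addVal A'' (y ^ p) = ((e'' * j : ℕ) : ℕ∞) := by
      have h1 : addVal A'' (algebraMap A A'' x) < addVal A'' (algebraMap A A'' x - y ^ p) := by
        rw [hvx'']
        exact lt_of_lt_of_le (by exact_mod_cast hej) hvrest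
      have h2 : y ^ p = algebraMap A A'' x - (algebraMap A A'' x - y ^ p) := by ring
      rw [h2, (addVal A'').map_sub_eq_of_lt_left h1, hvx'']
    have hy0 : y ≠ 0 := by
      intro h0
      rw [h0, zero_pow hp.ne_zero, addVal_zero] at hvyp
      exact absurd hvyp.symm (ENat.natCast_ne_top _)
    obtain ⟨g, hg⟩ := addVal_natCast_of_ne_zero hy0
    rw [addVal_pow, hg] at hvyp
    simp only [nsmul_eq_mul] at hvyp
    have h3 : p * g = e'' * j := by exact_mod_cast hvyp
    have h4 : p ∣ e'' * j := ⟨g, h3.symm⟩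
    rcases (Nat.Prime.dvd_mul hp).mp h4 with h | h
    · exact he h
    · exact hpj h

end Descent

end Fermat.Agent.TW.KumBreak
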