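import Fermat.Agent.TW.KumBreak.Out
import Fermat.Agent.TW.KumBreak.Level

/-!
# Program G / F3-(f1): the group of allowed ("peu ramifiées") Kummer generators

`Allowed p w` (`Level.lean`) says `w ∈ (1 + p A) · (Frac A)^{× p}` for `w : A`.  We record the
closure properties (it is a subgroup of `(Frac A)^×` modulo `p`-th powers) and restate `kummer_out`.
-/

set_option autoImplicit false

namespace Fermat.Agent.TW.KumBreak

open IsDiscreteValuationRing

section Group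

variable {A : Type*} [CommRing A] [IsDomain A] {p : ℕ}

theorem allowed_one : Allowed p (1 : A) :=
  ⟨1, 1, 0, one_ne_zero, one_ne_zero, by simp⟩

theorem allowed_one_add_mul (a : A) : Allowed p (1 + (p : A) * a) :=
  ⟨1, 1, a, one_ne_zero, one_ne_zero, by simp⟩

theorem allowed_pow {d : A} (hd : d ≠ 0) : Allowed p (d ^ p) :=
  ⟨1, d, 0, one_ne_zero, hd, by simp⟩

theorem Allowed.mul {w₁ w₂ : A} (h₁ : Allowed p w₁) (h₂ : Allowed p w₂) : Allowed p (w₁ * w₂) := by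
  obtain ⟨c₁, d₁, a₁, hc₁, hd₁, e₁⟩ := h₁
  obtain ⟨c₂, d₂, a₂, hc₂, hd₂, e₂⟩ := h₂
  refine ⟨c₁ * c₂, d₁ * d₂, a₁ + a₂ + p * a₁ * a₂, mul_ne_zero hc₁ hc₂, mul_ne_zero hd₁ hd₂, ?_⟩
  have : w₁ * w₂ * (c₁ * c₂) ^ p = (w₁ * c₁ ^ p) * (w₂ * c₂ ^ p) := by ring
  rw [this, e₁, e₂]; ring

theorem Allowed.mul_ppow {w : A} (h : Allowed p w) {d : A} (hd : d ≠ 0) : Allowed p (w * d ^ p) :=
  h.mul (allowed_pow hd)

/-- Cancelling a `p`-th power. -/
theorem Allowed.of_mul_pow {w d : A} (hd : d ≠ 0) (h : Allowed p (w * d ^ p)) : Allowed p w := by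
  obtain ⟨c, d', a, hc, hd', e⟩ := h
  exact ⟨d * c, d', a, mul_ne_zero hd hc, hd', by rw [← e]; ring⟩

theorem Allowed.pow {w : A} (h : Allowed p w) (n : ℕ) : Allowed p (w ^ n) := by
  induction n with
  | zero => simpa using allowed_one
  | succ n ih => rw [pow_succ]; exact ih.mul h

end Group

section Inverse

variable {A : Type*} [CommRing A] [IsDomain A] [IsDiscreteValuationRing A] {p : ℕ}

/-- If `w w' ` is a `p`-th power (up to `p`-th powers) and `w` is allowed then so is `w'`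
("inverses"): here `p` lies in the maximal ideal, so `1 + p a` is a unit with inverse `1 + p a'`. -/
theorem Allowed.of_mul_eq_pow (hpA : 1 ≤ addVal A (p : A)) {w w' d : A} (hd : d ≠ 0)
    (h : Allowed p w) (hww' : w * w' = d ^ p) : Allowed p w' := by
  obtain ⟨c, d₁, a, hc, hd₁, e⟩ := h
  -- inverse of `1 + p a`
  have hu : IsUnit (1 + (p : A) * a) := by
    apply isUnit_of_addVal_sub_one
    have : 1 + (p : A) * a - 1 = (p : A) * a := by ring
    rw [this, addVal_mul]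
    exact hpA.trans le_self_add
  obtain ⟨v, hv⟩ := hu
  -- `v⁻¹ = 1 + p a'`
  have hinv : ((v⁻¹ : Aˣ) : A) = 1 + (p : A) * (-(a * ((v⁻¹ : Aˣ) : A))) := by
    have h1 : (1 + (p : A) * a) * ((v⁻¹ : Aˣ) : A) = 1 := by rw [← hv]; simp
    linear_combination h1
  refine ⟨d₁, d * c, -(a * ((v⁻¹ : Aˣ) : A)), hd₁, mul_ne_zero hd hc, ?_⟩
  rw [← hinv]
  -- w' d₁^p (1 + p a) = w' w c^p = d^p c^p
  have h2 : w' * d₁ ^ p * (1 + (p : A) * a) = (d * c) ^ p := by
    rw [mul_assoc, ← e, _root_.mul_pow, ← hww']; ring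
  have h3 : w' * d₁ ^ p = w' * d₁ ^ p * (1 + (p : A) * a) * ((v⁻¹ : Aˣ) : A) := by
    have h1 : (1 + (p : A) * a) * ((v⁻¹ : Aˣ) : A) = 1 := by rw [← hv]; simp
    rw [mul_assoc, h1, mul_one]
  rw [h3, h2]

end Inverse

section Out

variable {A B : Type*} [CommRing A] [IsDomain A] [IsDiscreteValuationRing A]
  [CommRing B] [IsDomain B] [IsDiscreteValuationRing B] [Algebra A B] {p : ℕ}

/-- `kummer_out` with the conclusion written as `Allowed p w`. -/
theorem allowed_of_break_le (h : TotRamP A B p) (s : B ≃ₐ[A] B) {ζ : A} (hζ : IsPrimitiveRoot ζ p)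
    (hperf : ∀ a : A, ∃ t : A, 1 ≤ addVal A (a - t ^ p))
    {α : B} {w : A} (hw : w ≠ 0) (hα : α ^ p = algebraMap A B w)
    (hs : s α = algebraMap A B ζ * α) {ϖ : B} (hϖ : Irreducible ϖ)
    (hbreak : ((p - 1 : ℕ) : ℕ∞) * addVal B (s ϖ - ϖ) ≤ addVal A (p : A) + ((p - 1 : ℕ) : ℕ∞)) :
    Allowed p w :=
  kummer_out h s hζ hperf hw hα hs hϖ hbreak

end Out

end Fermat.Agent.TW.KumBreak
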