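import Mathlib

/-!
# Program G / F3-(f1): Kummer breaks — basic valuation lemmas for an automorphism of a DVR

`B` is a discrete valuation ring and `s : B ≃+* B` a ring automorphism such that every residue
class of `B` has an `s`-fixed representative (`hres`: "trivial residue extension over the fixed
ring").  With `i := addVal B (s ϖ - ϖ)` for a uniformiser `ϖ` we prove

* `GL1`: `i ≤ addVal B (s y - y)` for all `y`;
* `GL2`: `addVal B y + i ≤ addVal B (s y - y) + 1`;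
* `GL3`: equality in `GL2` if `addVal B y = n` with `(n : B)` a unit and `2 ≤ i`;
* `two_le_addVal_sub`: `2 ≤ i` as soon as some `s`-fixed element has valuation `p`, where `p` is a
  prime lying in the maximal ideal.
-/

set_option autoImplicit false

namespace Fermat.Agent.TW.KumBreak

open IsDiscreteValuationRing

variable {B : Type*} [CommRing B] [IsDomain B] [IsDiscreteValuationRing B]

/-- Ring automorphisms of a DVR preserve the additive valuation. -/
theorem addVal_ringEquiv (s : B ≃+* B) (y : B) : addVal B (s y) = addVal B y := by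
  by_cases hy : y = 0
  · subst hy; simp
  obtain ⟨ϖ, hϖ⟩ := exists_irreducible B
  obtain ⟨n, hn⟩ := associated_pow_irreducible hy hϖ
  have hsϖ : Irreducible (s ϖ) := (MulEquiv.irreducible_iff s.toMulEquiv).mpr hϖ
  have h1 : Associated (s y) ((s ϖ) ^ n) := by
    obtain ⟨u, hu⟩ := hn
    refine ⟨Units.map (s : B →* B) u, ?_⟩
    have := congrArg s hu
    rw [map_mul, map_pow] at this
    exact this
  have h2 : Associated ((s ϖ) ^ n) (ϖ ^ n) := (associated_of_irreducible B hsϖ hϖ).pow_pow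
  rw [addVal_eq_iff_associated]
  exact (h1.trans h2).trans hn.symm

theorem addVal_natCast_of_ne_zero {y : B} (hy : y ≠ 0) : ∃ n : ℕ, addVal B y = n := by
  have : addVal B y ≠ ⊤ := fun h => hy (addVal_eq_top_iff.mp h)
  exact ⟨(addVal B y).toNat, (ENat.natCast_toNat this).symm⟩

theorem one_le_addVal_iff {y : B} : 1 ≤ addVal B y ↔ y ∈ IsLocalRing.maximalIdeal B := by
  rw [IsLocalRing.mem_maximalIdeal, mem_nonunits_iff, ← addVal_eq_zero_iff]
  constructor
  · intro h h0; rw [h0] at h; exact absurd h (by simp)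
  · intro h; exact Order.one_le_iff_ne_zero.mpr h

theorem dvd_of_le_addVal {ϖ y : B} (hϖ : Irreducible ϖ) {n : ℕ} (h : (n : ℕ∞) ≤ addVal B y) :
    ϖ ^ n ∣ y := by
  rw [← addVal_le_iff_dvd, addVal_pow, addVal_uniformizer hϖ]
  simpa using h

theorem le_addVal_of_dvd {ϖ y : B} (hϖ : Irreducible ϖ) {n : ℕ} (h : ϖ ^ n ∣ y) :
    (n : ℕ∞) ≤ addVal B y := by
  rw [← addVal_le_iff_dvd, addVal_pow, addVal_uniformizer hϖ] at h
  simpa using h

section GenLemmas

variable (s : B ≃+* B) (hres : ∀ y : B, ∃ a : B, s a = a ∧ 1 ≤ addVal B (y - a))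

include hres

/-- `GL1`: `v (s ϖ - ϖ) ≤ v (s y - y)` for every `y`. -/
theorem gl_one {ϖ : B} (hϖ : Irreducible ϖ) (y : B) :
    addVal B (s ϖ - ϖ) ≤ addVal B (s y - y) := by
  have key : ∀ k : ℕ, ∀ y : B, min (addVal B (s ϖ - ϖ)) k ≤ addVal B (s y - y) := by
    intro k
    induction k with
    | zero => intro y; simp
    | succ k ih =>
      intro y
      obtain ⟨a, ha, hya⟩ := hres y
      obtain ⟨y₁, hy₁⟩ := dvd_of_le_addVal hϖ (n := 1) (by simpa using hya)
      rw [pow_one] at hy₁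
      have e : s y - y = (s ϖ - ϖ) * s y₁ + ϖ * (s y₁ - y₁) := by
        have h1 : y = a + ϖ * y₁ := by rw [← hy₁]; ring
        rw [h1, map_add, map_mul, ha]; ring
      rw [e]
      refine le_trans ?_ ((addVal B).map_add _ _)
      refine le_min ?_ ?_
      · rw [addVal_mul]
        exact (min_le_left _ _).trans le_self_add
      · rw [addVal_mul, addVal_uniformizer hϖ]
        have := ih y₁
        calc min (addVal B (s ϖ - ϖ)) ((k + 1 : ℕ) : ℕ∞)
            ≤ 1 + min (addVal B (s ϖ - ϖ)) (k : ℕ∞) := by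
              rw [Nat.cast_add, Nat.cast_one, add_comm (k : ℕ∞) 1, ← min_add_add_left]
              exact min_le_min le_add_self le_rfl
          _ ≤ 1 + addVal B (s y₁ - y₁) := by gcongr
  rw [← ENat.forall_natCast_le_iff_le]
  intro k hk
  have := key k y
  rwa [min_eq_right hk] at this

omit hres in
/-- `v ((s ϖ)^n - ϖ^n) ≥ v (s ϖ - ϖ) + (n - 1)`, stated without subtraction. -/
theorem addVal_pow_sub_pow_ge {ϖ : B} (hϖ : Irreducible ϖ) (n : ℕ) :
    addVal B (s ϖ - ϖ) + n ≤ addVal B ((s ϖ) ^ n - ϖ ^ n) + 1 := by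
  rcases Nat.eq_zero_or_pos n with rfl | hn
  · simp
  rw [← geom_sum₂_mul, addVal_mul]
  have hs : ((n - 1 : ℕ) : ℕ∞) ≤
      addVal B (∑ i ∈ Finset.range n, (s ϖ) ^ i * ϖ ^ (n - 1 - i)) := by
    apply (addVal B).map_le_sum
    intro i hi
    rw [Finset.mem_range] at hi
    rw [addVal_mul, addVal_pow, addVal_pow, addVal_ringEquiv, addVal_uniformizer hϖ]
    simp only [nsmul_eq_mul, mul_one]
    rw [← Nat.cast_add]
    exact Nat.cast_le.mpr (by omega)
  calc addVal B (s ϖ - ϖ) + n = ((n - 1 : ℕ) : ℕ∞) + addVal B (s ϖ - ϖ) + 1 := by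
        have : (n : ℕ∞) = ((n - 1 : ℕ) : ℕ∞) + 1 := by
          have h : n = (n - 1) + 1 := by omega
          conv_lhs => rw [h]
          push_cast; rfl
        rw [this]; ring
    _ ≤ _ := by gcongr

/-- `GL2`: `v y + v (s ϖ - ϖ) ≤ v (s y - y) + 1`. -/
theorem gl_two {ϖ : B} (hϖ : Irreducible ϖ) (y : B) :
    addVal B y + addVal B (s ϖ - ϖ) ≤ addVal B (s y - y) + 1 := by
  by_cases hy : y = 0
  · subst hy; simp
  obtain ⟨n, u, hu⟩ := eq_unit_mul_pow_irreducible hy hϖ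
  have hvy : addVal B y = n := addVal_def y u hϖ n hu
  have e : s y - y = s (u : B) * ((s ϖ) ^ n - ϖ ^ n) + (s (u : B) - u) * ϖ ^ n := by
    rw [hu, map_mul, map_pow]; ring
  rw [e, hvy]
  have h1 : (n : ℕ∞) + addVal B (s ϖ - ϖ) ≤ addVal B (s (u : B) * ((s ϖ) ^ n - ϖ ^ n)) + 1 := by
    rw [addVal_mul, addVal_ringEquiv, addVal_eq_zero_of_unit, zero_add, add_comm]
    exact addVal_pow_sub_pow_ge s hϖ n
  have h2 : (n : ℕ∞) + addVal B (s ϖ - ϖ) ≤ addVal B ((s (u : B) - u) * ϖ ^ n) + 1 := by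
    rw [addVal_mul, addVal_pow, addVal_uniformizer hϖ]
    simp only [nsmul_eq_mul, mul_one]
    have := gl_one s hres hϖ (u : B)
    calc (n : ℕ∞) + addVal B (s ϖ - ϖ) ≤ (n : ℕ∞) + addVal B (s (u : B) - u) := by gcongr
      _ = addVal B (s (u : B) - u) + n := add_comm _ _
      _ ≤ _ := le_self_add
  calc (n : ℕ∞) + addVal B (s ϖ - ϖ)
      ≤ min (addVal B (s (u : B) * ((s ϖ) ^ n - ϖ ^ n)) + 1)
          (addVal B ((s (u : B) - u) * ϖ ^ n) + 1) := le_min h1 h2
    _ = min (addVal B (s (u : B) * ((s ϖ) ^ n - ϖ ^ n))) (addVal B ((s (u : B) - u) * ϖ ^ n)) + 1 :=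
        (min_add_add_right _ _ _)
    _ ≤ _ := by gcongr; exact (addVal B).map_add _ _

omit hres in
/-- If `(n : B)` is a unit and `2 ≤ v (s ϖ - ϖ)`, then `v ((s ϖ)^n - ϖ^n) + 1 = v (s ϖ - ϖ) + n`. -/
theorem addVal_pow_sub_pow_eq {ϖ : B} (hϖ : Irreducible ϖ) (n : ℕ) (hn : IsUnit (n : B))
    (h2 : 2 ≤ addVal B (s ϖ - ϖ)) :
    addVal B ((s ϖ) ^ n - ϖ ^ n) + 1 = addVal B (s ϖ - ϖ) + n := by
  have hn0 : n ≠ 0 := by
    rintro rfl
    simp at hn
  rw [← geom_sum₂_mul, addVal_mul]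
  -- the geometric sum is `n ϖ^(n-1)` up to higher order terms
  have hdiff : ∑ i ∈ Finset.range n, (s ϖ) ^ i * ϖ ^ (n - 1 - i) =
      (n : B) * ϖ ^ (n - 1) + ∑ i ∈ Finset.range n, ((s ϖ) ^ i - ϖ ^ i) * ϖ ^ (n - 1 - i) := by
    have : ∀ i ∈ Finset.range n, (s ϖ) ^ i * ϖ ^ (n - 1 - i) =
        ϖ ^ (n - 1) + ((s ϖ) ^ i - ϖ ^ i) * ϖ ^ (n - 1 - i) := by
      intro i hi
      rw [Finset.mem_range] at hi
      have : ϖ ^ (n - 1) = ϖ ^ i * ϖ ^ (n - 1 - i) := by
        rw [← pow_add]; congr 1; omega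
      rw [this]; ring
    rw [Finset.sum_congr rfl this, Finset.sum_add_distrib, Finset.sum_const, Finset.card_range,
      nsmul_eq_mul]
  have hmain : addVal B ((n : B) * ϖ ^ (n - 1)) = ((n - 1 : ℕ) : ℕ∞) := by
    rw [addVal_mul, addVal_eq_zero_iff.mpr hn, zero_add, addVal_pow, addVal_uniformizer hϖ]
    simp
  have hrest : ((n : ℕ) : ℕ∞) ≤
      addVal B (∑ i ∈ Finset.range n, ((s ϖ) ^ i - ϖ ^ i) * ϖ ^ (n - 1 - i)) := by
    apply (addVal B).map_le_sum
    intro i hi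
    rw [Finset.mem_range] at hi
    rw [addVal_mul, addVal_pow, addVal_uniformizer hϖ]
    simp only [nsmul_eq_mul, mul_one]
    rcases Nat.eq_zero_or_pos i with rfl | hi0
    · simp
    have h3 := addVal_pow_sub_pow_ge s hϖ i
    -- v(...) + 1 ≥ 2 + i
    have h4 : (2 : ℕ∞) + i ≤ addVal B ((s ϖ) ^ i - ϖ ^ i) + 1 := le_trans (by gcongr) h3
    have h5 : (1 : ℕ∞) + i ≤ addVal B ((s ϖ) ^ i - ϖ ^ i) := by
      have : (2 : ℕ∞) + i = (1 + i) + 1 := by ring
      rw [this] at h4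
      exact (ENat.add_le_add_iff_right (by simp)).mp h4
    calc ((n : ℕ) : ℕ∞) = (1 : ℕ∞) + i + ((n - 1 - i : ℕ) : ℕ∞) := by
          have : n = 1 + i + (n - 1 - i) := by omega
          conv_lhs => rw [this]
          push_cast; rfl
      _ ≤ _ := by gcongr
  have hsum : addVal B (∑ i ∈ Finset.range n, (s ϖ) ^ i * ϖ ^ (n - 1 - i)) = ((n - 1 : ℕ) : ℕ∞) := by
    rw [hdiff, (addVal B).map_add_eq_of_lt_left, hmain]
    rw [hmain]
    refine lt_of_lt_of_le ?_ hrest
    exact Nat.cast_lt.mpr (by omega)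
  rw [hsum, add_comm (addVal B (s ϖ - ϖ)) n]
  have : (n : ℕ∞) = ((n - 1 : ℕ) : ℕ∞) + 1 := by
    have h : n = (n - 1) + 1 := by omega
    conv_lhs => rw [h]
    push_cast; rfl
  rw [this]; ring

include hres in
/-- `GL3`: if `v y = n` with `(n : B)` a unit and `2 ≤ v (s ϖ - ϖ)` then
`v (s y - y) + 1 = v y + v (s ϖ - ϖ)`. -/
theorem gl_three {ϖ : B} (hϖ : Irreducible ϖ) (h2 : 2 ≤ addVal B (s ϖ - ϖ))
    {y : B} {n : ℕ} (hy : addVal B y = n) (hn : IsUnit (n : B)) :
    addVal B (s y - y) + 1 = addVal B y + addVal B (s ϖ - ϖ) := by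
  have hy0 : y ≠ 0 := by
    rintro rfl
    simp at hy
  obtain ⟨m, u, hu⟩ := eq_unit_mul_pow_irreducible hy0 hϖ
  have hvy : addVal B y = m := addVal_def y u hϖ m hu
  have hmn : m = n := by
    rw [hvy] at hy; exact_mod_cast hy
  subst hmn
  refine le_antisymm ?_ (gl_two s hres hϖ y)
  by_cases htop : addVal B (s ϖ - ϖ) = ⊤
  · rw [htop]; simp
  obtain ⟨i, hi⟩ : ∃ i : ℕ, addVal B (s ϖ - ϖ) = i :=
    ⟨_, (ENat.natCast_toNat htop).symm⟩
  have e : s y - y = s (u : B) * ((s ϖ) ^ m - ϖ ^ m) + (s (u : B) - u) * ϖ ^ m := by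
    rw [hu, map_mul, map_pow]; ring
  have h1 : addVal B (s (u : B) * ((s ϖ) ^ m - ϖ ^ m)) + 1 = (i : ℕ∞) + m := by
    rw [addVal_mul, addVal_ringEquiv, addVal_eq_zero_of_unit, zero_add,
      addVal_pow_sub_pow_eq s hϖ m hn h2, hi]
  have h2' : (i : ℕ∞) + m ≤ addVal B ((s (u : B) - u) * ϖ ^ m) := by
    rw [addVal_mul, addVal_pow, addVal_uniformizer hϖ]
    simp only [nsmul_eq_mul, mul_one]
    have := gl_one s hres hϖ (u : B)
    rw [hi] at this
    gcongr
  have hm0 : m ≠ 0 := by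
    rintro rfl
    simp at hn
  have hi2 : 2 ≤ i := by rw [hi] at h2; exact_mod_cast h2
  -- so the first term has valuation exactly i + m - 1
  have h1' : addVal B (s (u : B) * ((s ϖ) ^ m - ϖ ^ m)) = ((i + m - 1 : ℕ) : ℕ∞) := by
    have h3 : ((i + m - 1 : ℕ) : ℕ∞) + 1 = (i : ℕ∞) + m := by
      have : i + m = (i + m - 1) + 1 := by omega
      rw [← Nat.cast_add, this]; push_cast; rfl
    rw [← h3] at h1
    exact (ENat.add_left_injective_of_ne_top (by simp)) h1
  rw [e, (addVal B).map_add_eq_of_lt_left, h1', hvy, hi]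
  · have : i + m = (i + m - 1) + 1 := by omega
    rw [add_comm (m : ℕ∞) i, ← Nat.cast_add, this]; push_cast; rfl
  · rw [h1']
    refine lt_of_lt_of_le ?_ h2'
    rw [← Nat.cast_add]
    exact Nat.cast_lt.mpr (by omega)

include hres in
/-- Wildness: if some `s`-fixed element has valuation `p`, where the prime `p` lies in the maximal
ideal, then `2 ≤ v (s ϖ - ϖ)` for every uniformiser `ϖ`. -/
theorem two_le_addVal_sub {p : ℕ} (hp : p.Prime) (hpB : 1 ≤ addVal B (p : B))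
    {ϖ₀ : B} (hfix : s ϖ₀ = ϖ₀) (hval : addVal B ϖ₀ = p)
    {ϖ : B} (hϖ : Irreducible ϖ) : 2 ≤ addVal B (s ϖ - ϖ) := by
  -- `s ϖ = ε ϖ`
  have hsϖ : addVal B (s ϖ) = 1 := by rw [addVal_ringEquiv, addVal_uniformizer hϖ]
  obtain ⟨ε, hε⟩ : ϖ ∣ s ϖ := by
    rw [← addVal_le_iff_dvd, hsϖ, addVal_uniformizer hϖ]
  have hεu : addVal B ε = 0 := by
    have := hsϖ
    rw [hε, addVal_mul, addVal_uniformizer hϖ] at this
    have h1 : (1 : ℕ∞) + addVal B ε = 1 + 0 := by rw [this, add_zero]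
    exact (ENat.add_right_injective_of_ne_top (by simp)) h1
  have hϖ₀0 : ϖ₀ ≠ 0 := by
    rintro rfl
    simp at hval
  obtain ⟨m, μ, hμ⟩ := eq_unit_mul_pow_irreducible hϖ₀0 hϖ
  have hm : m = p := by
    have := addVal_def ϖ₀ μ hϖ m hμ
    rw [hval] at this; exact_mod_cast this.symm
  subst hm
  -- apply `s`
  have h1 : (μ : B) = s (μ : B) * ε ^ m := by
    have h2 : ϖ₀ = s (μ : B) * ε ^ m * ϖ ^ m := by
      conv_lhs => rw [← hfix, hμ, map_mul, map_pow, hε]
      ring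
    rw [hμ] at h2
    exact mul_right_cancel₀ (pow_ne_zero _ hϖ.ne_zero) h2
  have hge1 : 1 ≤ addVal B (s ϖ - ϖ) := by
    refine le_trans ?_ ((addVal B).map_sub _ _)
    rw [hsϖ, addVal_uniformizer hϖ, min_self]
  have h3 : 1 ≤ addVal B (ε ^ m - 1) := by
    have h4 : (ε ^ m - 1) * s (μ : B) = -(s (μ : B) - μ) := by
      linear_combination (-1 : B) * h1
    have h5 : addVal B ((ε ^ m - 1) * s (μ : B)) = addVal B (ε ^ m - 1) := by
      rw [addVal_mul, addVal_ringEquiv, addVal_eq_zero_of_unit, add_zero]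
    rw [← h5, h4, (addVal B).map_neg]
    exact hge1.trans (gl_one s hres hϖ (μ : B))
  obtain ⟨r, hr⟩ := exists_add_pow_prime_eq hp (ε - 1) 1
  have h6 : (ε - 1) ^ m = (ε ^ m - 1) - (m : B) * (ε - 1) * r := by
    have : ε - 1 + 1 = ε := by ring
    rw [this] at hr
    rw [hr]; ring
  have h7 : 1 ≤ addVal B ((ε - 1) ^ m) := by
    rw [h6]
    refine le_trans (le_min h3 ?_) ((addVal B).map_sub _ _)
    rw [addVal_mul, addVal_mul]
    exact hpB.trans (le_self_add.trans le_self_add)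
  have h8 : 1 ≤ addVal B (ε - 1) := by
    by_contra hcon
    have h0 : addVal B (ε - 1) = 0 := by
      rw [Order.one_le_iff_ne_zero] at hcon
      exact not_not.mp hcon
    rw [addVal_pow, h0, smul_zero] at h7
    exact absurd h7 (by simp)
  have h9 : s ϖ - ϖ = (ε - 1) * ϖ := by rw [hε]; ring
  rw [h9, addVal_mul, addVal_uniformizer hϖ]
  calc (2 : ℕ∞) = 1 + 1 := by norm_num
    _ ≤ _ := by gcongr

end GenLemmas

end Fermat.Agent.TW.KumBreak
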