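import Fermat.Agent.TW.KumBreak.Basic

/-!
# Program G / F3-(f1): improving a principal unit by a `p`-th power

`A` a discrete valuation ring whose residue field is perfect of characteristic `p`
(in the form `hperf : ∀ a, ∃ t, 1 ≤ v (a - t ^ p)`).

* `exists_unit_pow_mul_sub_one` (U1): every unit `w` has `1 ≤ v (w c^p - 1)` for some unit `c`.
* `improve_of_dvd` (IMP): if `v x = j` with `p ∣ j`, `1 ≤ j`, `(p - 1) j < p · v p`, then
  `j + 1 ≤ v ((1 + x) c^p - 1)` for some unit `c`.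
-/

set_option autoImplicit false

namespace Fermat.Agent.TW.KumBreak

open IsDiscreteValuationRing

variable {A : Type*} [CommRing A] [IsDomain A] [IsDiscreteValuationRing A] {p : ℕ}

theorem isUnit_of_addVal_sub_one {c : A} (hc : 1 ≤ addVal A (c - 1)) : IsUnit c := by
  rw [← addVal_eq_zero_iff]
  have : c = 1 + (c - 1) := by ring
  rw [this, (addVal A).map_add_eq_of_lt_left, addVal_one]
  rw [addVal_one]
  exact lt_of_lt_of_le (by simp) hc

/-- (U1) -/
theorem exists_unit_pow_mul_sub_one (hp : p.Prime)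
    (hperf : ∀ a : A, ∃ t : A, 1 ≤ addVal A (a - t ^ p))
    {w : A} (hw : IsUnit w) : ∃ c : Aˣ, 1 ≤ addVal A (w * (c : A) ^ p - 1) := by
  obtain ⟨t, ht⟩ := hperf w
  have htu : IsUnit t := by
    rw [← addVal_eq_zero_iff]
    by_contra hne
    have h1 : 1 ≤ addVal A t := Order.one_le_iff_ne_zero.mpr hne
    have h2 : 1 ≤ addVal A (t ^ p) := by
      rw [addVal_pow]
      calc (1 : ℕ∞) ≤ addVal A t := h1
        _ = 1 • addVal A t := (one_smul _ _).symm
        _ ≤ p • addVal A t := by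
            simp only [nsmul_eq_mul]
            gcongr
            exact_mod_cast hp.one_le
    have h3 : 1 ≤ addVal A w := by
      have : w = (w - t ^ p) + t ^ p := by ring
      rw [this]
      exact le_trans (le_min ht h2) ((addVal A).map_add _ _)
    rw [addVal_eq_zero_iff.mpr hw] at h3
    exact absurd h3 (by simp)
  refine ⟨htu.unit⁻¹, ?_⟩
  have h4 : w * ((htu.unit⁻¹ : Aˣ) : A) ^ p - 1 = (w - t ^ p) * ((htu.unit⁻¹ : Aˣ) : A) ^ p := by
    have : t * ((htu.unit⁻¹ : Aˣ) : A) = 1 := by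
      have := htu.unit.mul_inv
      simp
    have h5 : t ^ p * ((htu.unit⁻¹ : Aˣ) : A) ^ p = 1 := by rw [← mul_pow, this, one_pow]
    linear_combination h5
  rw [h4, addVal_mul]
  exact ht.trans le_self_add

/-- (IMP) -/
theorem improve_of_dvd (hp : p.Prime)
    (hperf : ∀ a : A, ∃ t : A, 1 ≤ addVal A (a - t ^ p))
    {e₁ : ℕ} (he₁ : addVal A (p : A) = e₁)
    {x : A} {j : ℕ} (hj : addVal A x = j) (hpj : p ∣ j) (hj1 : 1 ≤ j)
    (hlt : (p - 1) * j < p * e₁) :
    ∃ c : Aˣ, ((j + 1 : ℕ) : ℕ∞) ≤ addVal A ((1 + x) * (c : A) ^ p - 1) := by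
  obtain ⟨j', rfl⟩ := hpj
  have hp2 := hp.two_le
  have hj'1 : 1 ≤ j' := by
    rcases Nat.eq_zero_or_pos j' with rfl | h
    · simp at hj1
    · exact h
  have hx0 : x ≠ 0 := by
    rintro rfl
    rw [addVal_zero] at hj
    exact absurd hj.symm (ENat.natCast_ne_top _)
  obtain ⟨π, hπ⟩ := exists_irreducible A
  obtain ⟨m, u, hu⟩ := eq_unit_mul_pow_irreducible hx0 hπ
  have hm : m = p * j' := by
    have := addVal_def x u hπ m hu
    rw [hj] at this; exact_mod_cast this.symm
  subst hm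
  obtain ⟨t, ht⟩ := hperf (-(u : A))
  set y : A := π ^ j' * t with hy
  have hvy : (j' : ℕ∞) ≤ addVal A y := by
    rw [hy, addVal_mul, addVal_pow, addVal_uniformizer hπ]
    simp
  have hvy1 : 1 ≤ addVal A y := le_trans (by exact_mod_cast hj'1) hvy
  obtain ⟨r, hr⟩ := exists_add_pow_prime_eq hp 1 y
  rw [one_pow, mul_one] at hr
  have hc1 : 1 ≤ addVal A ((1 + y) - 1) := by
    have : (1 + y) - 1 = y := by ring
    rw [this]; exact hvy1
  have hcu : IsUnit (1 + y) := isUnit_of_addVal_sub_one hc1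
  refine ⟨hcu.unit, ?_⟩
  have hcval : ((hcu.unit : Aˣ) : A) = 1 + y := rfl
  rw [hcval]
  have hyp : y ^ p = π ^ (p * j') * t ^ p := by
    rw [hy, mul_pow, ← pow_mul, mul_comm j' p]
  -- the three terms
  have e : (1 + x) * (1 + y) ^ p - 1 =
      π ^ (p * j') * (t ^ p + u) + (p : A) * y * r + (u : A) * π ^ (p * j') * ((1 + y) ^ p - 1) := by
    rw [hr, hu, hyp]; ring
  have hπv : addVal A (π ^ (p * j')) = ((p * j' : ℕ) : ℕ∞) := by
    rw [addVal_pow, addVal_uniformizer hπ]; simp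
  have t1 : ((p * j' + 1 : ℕ) : ℕ∞) ≤ addVal A (π ^ (p * j') * (t ^ p + u)) := by
    rw [addVal_mul, hπv]
    have : t ^ p + (u : A) = -(-(u : A) - t ^ p) := by ring
    rw [this, (addVal A).map_neg]
    push_cast
    gcongr
  have t2 : ((p * j' + 1 : ℕ) : ℕ∞) ≤ addVal A ((p : A) * y * r) := by
    rw [addVal_mul, addVal_mul, he₁]
    have h1 : (p - 1) * j' < e₁ := by
      have : (p - 1) * (p * j') = p * ((p - 1) * j') := by ring
      rw [this] at hlt
      exact Nat.lt_of_mul_lt_mul_left hlt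
    have h2 : p * j' + 1 ≤ e₁ + j' := by
      have : p * j' = (p - 1) * j' + j' := by
        obtain ⟨q, rfl⟩ : ∃ q, p = q + 1 := ⟨p - 1, by omega⟩
        simp; ring
      omega
    calc ((p * j' + 1 : ℕ) : ℕ∞) ≤ ((e₁ + j' : ℕ) : ℕ∞) := Nat.cast_le.mpr h2
      _ = (e₁ : ℕ∞) + j' := by push_cast; rfl
      _ ≤ (e₁ : ℕ∞) + addVal A y := by gcongr
      _ ≤ _ := le_self_add
  have t3 : ((p * j' + 1 : ℕ) : ℕ∞) ≤ addVal A ((u : A) * π ^ (p * j') * ((1 + y) ^ p - 1)) := by
    rw [addVal_mul, addVal_mul, addVal_eq_zero_of_unit, zero_add, hπv]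
    have h1 : 1 ≤ addVal A ((1 + y) ^ p - 1) := by
      have : (1 + y) ^ p - 1 = y ^ p + (p : A) * y * r := by rw [hr]; ring
      rw [this]
      refine le_trans (le_min ?_ ?_) ((addVal A).map_add _ _)
      · rw [addVal_pow]
        calc (1 : ℕ∞) ≤ addVal A y := hvy1
          _ = 1 • addVal A y := (one_smul _ _).symm
          _ ≤ p • addVal A y := by
              simp only [nsmul_eq_mul]
              gcongr
              exact_mod_cast hp.one_le
      · rw [addVal_mul, addVal_mul]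
        exact hvy1.trans (le_add_self.trans le_self_add)
    push_cast
    gcongr
  rw [e]
  refine le_trans (le_min (le_trans (le_min t1 t2) ((addVal A).map_add _ _)) t3)
    ((addVal A).map_add _ _)

end Fermat.Agent.TW.KumBreak
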