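import Fermat.Agent.TW.KumBreak.Basic

/-!
# Program G / F3-(f1): the break of a Kummer layer of degree `p`

Setting: `A ⊆ B` discrete valuation rings, `B/A` totally ramified of degree `p` with trivial
residue extension and residue characteristic `p` (`TotRamP A B p`), `s : B ≃ₐ[A] B`,
`ζ : A` a primitive `p`-th root of unity, `α : B` with `s α = ζ α` and `α ^ p = w ∈ A`.

* `addVal_zeta_sub_one`: `(p - 1) · v_A (ζ - 1) = v_A (p)`.
* `kummer_break_unit` (KB): if `w = 1 + x` with `v_A x = j`, `p ∤ j`, `(p - 1) j < p · v_A p`, then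
  `v_B (s ϖ - ϖ) + j = 1 + p · v_A (ζ - 1)` for every uniformiser `ϖ` of `B`.
* `kummer_break_val` (KB0): if `p ∤ v_A w` then `v_B (s ϖ - ϖ) = 1 + p · v_A (ζ - 1)`.
-/

set_option autoImplicit false

namespace Fermat.Agent.TW.KumBreak

open IsDiscreteValuationRing

/-- `B/A` is a totally ramified extension of discrete valuation rings of degree `p`, with trivial
residue field extension, and the prime `p` lies in the maximal ideal of `A`. -/
structure TotRamP (A B : Type*) [CommRing A] [IsDomain A] [IsDiscreteValuationRing A]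
    [CommRing B] [IsDomain B] [IsDiscreteValuationRing B] [Algebra A B] (p : ℕ) : Prop where
  prime : p.Prime
  ram : ∀ a : A, addVal B (algebraMap A B a) = p * addVal A a
  res : ∀ y : B, ∃ a : A, 1 ≤ addVal B (y - algebraMap A B a)
  resChar : 1 ≤ addVal A (p : A)

section Zeta

variable {A : Type*} [CommRing A] [IsDomain A] [IsDiscreteValuationRing A]

theorem addVal_prod_range (f : ℕ → A) (n : ℕ) (c : ℕ∞)
    (h : ∀ k < n, addVal A (f k) = c) :
    addVal A (∏ k ∈ Finset.range n, f k) = n * c := by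
  induction n with
  | zero => simp
  | succ n ih =>
    rw [Finset.prod_range_succ, addVal_mul, ih (fun k hk => h k (by omega)), h n (by omega)]
    push_cast; ring

/-- `(p - 1) · v (ζ - 1) = v p` for a primitive `p`-th root of unity `ζ`. -/
theorem addVal_zeta_sub_one {p : ℕ} (hp : p.Prime) {ζ : A} (hζ : IsPrimitiveRoot ζ p) :
    ((p - 1 : ℕ) : ℕ∞) * addVal A (ζ - 1) = addVal A (p : A) := by
  obtain ⟨n, rfl⟩ : ∃ n, p = n + 1 := ⟨p - 1, by have := hp.pos; omega⟩
  have h1 := hζ.prod_pow_sub_one_eq_order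
  have h2 : addVal A (((n + 1 : ℕ) : A)) = addVal A (∏ k ∈ Finset.range n, (ζ ^ (k + 1) - 1)) := by
    have : ((n + 1 : ℕ) : A) = (-1) ^ n * ∏ k ∈ Finset.range n, (ζ ^ (k + 1) - 1) := by
      rw [h1]; push_cast; rfl
    rw [this, addVal_mul, addVal_pow, (addVal A).map_neg, addVal_one, smul_zero, zero_add]
  rw [h2, addVal_prod_range _ n (addVal A (ζ - 1))]
  · simp
  · intro k hk
    have hcop : (k + 1).Coprime (n + 1) :=
      ((Nat.Prime.coprime_iff_not_dvd hp).mpr
        (Nat.not_dvd_of_pos_of_lt (by omega) (by omega))).symm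
    exact ((addVal_eq_iff_associated _ _).mpr
      (hζ.associated_sub_one_pow_sub_one_of_coprime hcop)).symm

end Zeta

section Layer

variable {A B : Type*} [CommRing A] [IsDomain A] [IsDiscreteValuationRing A]
  [CommRing B] [IsDomain B] [IsDiscreteValuationRing B] [Algebra A B] {p : ℕ}

namespace TotRamP

variable (h : TotRamP A B p)

include h

theorem algebraMap_injective : Function.Injective (algebraMap A B) := by
  rw [injective_iff_map_eq_zero]
  intro a ha
  have := h.ram a
  rw [ha, addVal_zero] at this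
  by_contra hne
  obtain ⟨n, hn⟩ := addVal_natCast_of_ne_zero hne
  rw [hn] at this
  exact absurd this.symm (by
    rw [← Nat.cast_mul]; exact ENat.natCast_ne_top _)

theorem hres (s : B ≃ₐ[A] B) :
    ∀ y : B, ∃ a : B, (s : B ≃+* B) a = a ∧ 1 ≤ addVal B (y - a) := by
  intro y
  obtain ⟨a, ha⟩ := h.res y
  exact ⟨algebraMap A B a, s.commutes a, ha⟩

theorem one_le_addVal_natCast : 1 ≤ addVal B (p : B) := by
  have : (p : B) = algebraMap A B (p : A) := by simp
  rw [this, h.ram]
  have h1 := h.resChar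
  have h2 : (1 : ℕ∞) ≤ p := by exact_mod_cast h.prime.one_le
  calc (1 : ℕ∞) = 1 * 1 := by simp
    _ ≤ _ := mul_le_mul' h2 h1

theorem two_le (s : B ≃ₐ[A] B) {ϖ : B} (hϖ : Irreducible ϖ) :
    2 ≤ addVal B ((s : B ≃+* B) ϖ - ϖ) := by
  obtain ⟨π, hπ⟩ := exists_irreducible A
  refine two_le_addVal_sub (s : B ≃+* B) (h.hres s) h.prime h.one_le_addVal_natCast
    (ϖ₀ := algebraMap A B π) (s.commutes π) ?_ hϖ
  rw [h.ram, addVal_uniformizer hπ, mul_one]

theorem isUnit_natCast {n : ℕ} (hn : ¬ p ∣ n) : IsUnit (n : B) := by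
  have hcop : IsCoprime (n : ℤ) (p : ℤ) :=
    Nat.isCoprime_iff_coprime.mpr ((Nat.Prime.coprime_iff_not_dvd h.prime).mpr hn).symm
  obtain ⟨a, b, hab⟩ := hcop
  have hab' : (a : B) * (n : B) + (b : B) * (p : B) = 1 := by
    have := congrArg (Int.cast : ℤ → B) hab
    push_cast at this
    exact this
  rw [← addVal_eq_zero_iff]
  by_contra hne
  have h1 : 1 ≤ addVal B (n : B) := Order.one_le_iff_ne_zero.mpr hne
  have h2 : 1 ≤ addVal B ((a : B) * (n : B) + (b : B) * (p : B)) := by
    refine le_trans (le_min ?_ ?_) ((addVal B).map_add _ _)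
    · rw [addVal_mul]; exact h1.trans le_add_self
    · rw [addVal_mul]; exact h.one_le_addVal_natCast.trans le_add_self
  rw [hab', addVal_one] at h2
  exact absurd h2 (by simp)

end TotRamP

variable (h : TotRamP A B p) (s : B ≃ₐ[A] B)

include h

/-- (KB0) If `α ^ p = w ∈ A` with `p ∤ v_A w` and `s α = ζ α`, then the layer has the maximal
break: `v_B (s ϖ - ϖ) = 1 + p · v_A (ζ - 1)`. -/
theorem kummer_break_val {ζ : A} {α : B} {w : A}
    (hα : α ^ p = algebraMap A B w) (hs : s α = algebraMap A B ζ * α)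
    {c : ℕ} (hc : addVal A w = c) (hpc : ¬ p ∣ c) {ϖ : B} (hϖ : Irreducible ϖ) :
    addVal B (s ϖ - ϖ) = 1 + p * addVal A (ζ - 1) := by
  have hp := h.prime
  have hvα : addVal B α = c := by
    have h1 : addVal B (α ^ p) = p * (c : ℕ∞) := by rw [hα, h.ram, hc]
    rw [addVal_pow] at h1
    have hα0 : α ≠ 0 := by
      rintro rfl
      rw [addVal_zero] at h1
      simp only [nsmul_eq_mul] at h1
      rw [ENat.mul_top (by exact_mod_cast hp.ne_zero)] at h1
      exact absurd h1.symm (by rw [← Nat.cast_mul]; exact ENat.natCast_ne_top _)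
    obtain ⟨g, hg⟩ := addVal_natCast_of_ne_zero hα0
    rw [hg] at h1 ⊢
    simp only [nsmul_eq_mul] at h1
    have : p * g = p * c := by exact_mod_cast h1
    have := Nat.eq_of_mul_eq_mul_left hp.pos this
    rw [this]
  have h3 := gl_three (s : B ≃+* B) (h.hres s) hϖ (h.two_le s hϖ) hvα (h.isUnit_natCast hpc)
  have h4 : (s : B ≃+* B) α - α = algebraMap A B (ζ - 1) * α := by
    change s α - α = _
    rw [hs, map_sub, map_one]; ring
  rw [h4, addVal_mul, h.ram, hvα] at h3
  -- p z + c + 1 = c + i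
  change addVal B ((s : B ≃+* B) ϖ - ϖ) = _
  have h5 : (c : ℕ∞) + (1 + p * addVal A (ζ - 1)) = c + addVal B ((s : B ≃+* B) ϖ - ϖ) := by
    rw [← h3]; ring
  exact ((ENat.add_right_injective_of_ne_top (ENat.natCast_ne_top c)) h5).symm

/-- (KB) If `α ^ p = 1 + x` with `x ∈ A`, `v_A x = j`, `p ∤ j`, `(p - 1) j < p · v_A p` and
`s α = ζ α` for a primitive `p`-th root of unity `ζ`, then `v_B (s ϖ - ϖ) + j = 1 + p · v_A (ζ - 1)`:
the break of the layer is `p e₁ / (p - 1) - j`. -/
theorem kummer_break_unit {ζ : A} (hζ : IsPrimitiveRoot ζ p) {α : B} {x : A}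
    (hα : α ^ p = 1 + algebraMap A B x) (hs : s α = algebraMap A B ζ * α)
    {j : ℕ} (hj : addVal A x = j) (hpj : ¬ p ∣ j)
    (hlt : (((p - 1) * j : ℕ) : ℕ∞) < p * addVal A (p : A))
    {ϖ : B} (hϖ : Irreducible ϖ) :
    addVal B (s ϖ - ϖ) + j = 1 + p * addVal A (ζ - 1) := by
  have hp := h.prime
  have hp2 : 2 ≤ p := hp.two_le
  have hj1 : 1 ≤ j := by
    rcases Nat.eq_zero_or_pos j with rfl | hpos
    · exact absurd (dvd_zero p) hpj
    · exact hpos
  -- `v_A p = e₁` is finite
  have hζ1 : ζ - 1 ≠ 0 := by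
    intro h0
    have : ζ = 1 := by linear_combination h0
    exact hp.one_lt.ne' (hζ.unique (this ▸ IsPrimitiveRoot.one))
  obtain ⟨z, hz⟩ := addVal_natCast_of_ne_zero hζ1
  have hZ := addVal_zeta_sub_one hp hζ
  rw [hz] at hZ
  have he1 : addVal A (p : A) = ((p - 1) * z : ℕ) := by rw [← hZ]; push_cast; rfl
  rw [he1] at hlt
  have hlt' : (p - 1) * j < p * ((p - 1) * z) := by exact_mod_cast hlt
  -- valuations in `B`
  set γ : B := α - 1 with hγ
  set x' : B := algebraMap A B x with hx'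
  have hvx : addVal B x' = ((p * j : ℕ) : ℕ∞) := by rw [hx', h.ram, hj]; push_cast; rfl
  have hvp : addVal B (p : B) = ((p * ((p - 1) * z) : ℕ) : ℕ∞) := by
    have : (p : B) = algebraMap A B (p : A) := by simp
    rw [this, h.ram, he1]; push_cast; rfl
  obtain ⟨r, hr⟩ := exists_add_pow_prime_eq hp γ 1
  have hexp : x' = γ ^ p + (p : B) * γ * r := by
    have h1 : γ + 1 = α := by rw [hγ]; ring
    rw [h1, hα] at hr
    linear_combination hr
  have hγ0 : γ ≠ 0 := by
    intro h0
    rw [h0] at hexp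
    have : x' = 0 := by rw [hexp, zero_pow hp.ne_zero]; ring
    rw [this, addVal_zero] at hvx
    exact absurd hvx.symm (ENat.natCast_ne_top _)
  obtain ⟨g, hg⟩ := addVal_natCast_of_ne_zero hγ0
  have hvγp : addVal B (γ ^ p) = ((p * g : ℕ) : ℕ∞) := by
    rw [addVal_pow, hg]; push_cast; simp
  have hvrest : ((p * ((p - 1) * z) + g : ℕ) : ℕ∞) ≤ addVal B ((p : B) * γ * r) := by
    rw [addVal_mul, addVal_mul, hvp, hg, ← Nat.cast_add]
    exact le_self_add
  have hrest : (p : B) * γ * r = x' - γ ^ p := by rw [hexp]; ring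
  have hgj : g = j := by
    rcases lt_trichotomy g j with hlt1 | heq | hgt1
    · exfalso
      have h1 : addVal B (x' - γ ^ p) = ((p * g : ℕ) : ℕ∞) := by
        rw [(addVal B).map_sub_eq_of_lt_right, hvγp]
        rw [hvγp, hvx]
        exact Nat.cast_lt.mpr (Nat.mul_lt_mul_of_pos_left hlt1 hp.pos)
      rw [hrest, h1] at hvrest
      have h2 : p * ((p - 1) * z) + g ≤ p * g := by exact_mod_cast hvrest
      have h3 : (p - 1) * g < (p - 1) * j :=
        Nat.mul_lt_mul_of_pos_left hlt1 (by omega)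
      have h4 : p * g = (p - 1) * g + g := by
        obtain ⟨q, rfl⟩ : ∃ q, p = q + 1 := ⟨p - 1, by omega⟩
        simp; ring
      omega
    · exact heq
    · exfalso
      have h1 : addVal B (x' - γ ^ p) = ((p * j : ℕ) : ℕ∞) := by
        rw [(addVal B).map_sub_eq_of_lt_left, hvx]
        rw [hvγp, hvx]
        exact Nat.cast_lt.mpr (Nat.mul_lt_mul_of_pos_left hgt1 hp.pos)
      rw [hrest, h1] at hvrest
      have h2 : p * ((p - 1) * z) + g ≤ p * j := by exact_mod_cast hvrest
      have h4 : p * j = (p - 1) * j + j := by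
        obtain ⟨q, rfl⟩ : ∃ q, p = q + 1 := ⟨p - 1, by omega⟩
        simp; ring
      omega
  subst hgj
  -- `α` is a unit
  have hαu : addVal B α = 0 := by
    have h1 : α = 1 + γ := by rw [hγ]; ring
    rw [h1, (addVal B).map_add_eq_of_lt_left, addVal_one]
    rw [addVal_one, hg]
    exact_mod_cast hj1
  have h3 := gl_three (s : B ≃+* B) (h.hres s) hϖ (h.two_le s hϖ) hg (h.isUnit_natCast hpj)
  have h4 : (s : B ≃+* B) γ - γ = algebraMap A B (ζ - 1) * α := by
    change s γ - γ = _
    rw [hγ, map_sub, map_one, hs, map_sub, map_one]; ring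
  rw [h4, addVal_mul, h.ram, hαu, add_zero, hg] at h3
  change addVal B ((s : B ≃+* B) ϖ - ϖ) + _ = _
  rw [add_comm, ← h3]; ring

end Layer

end Fermat.Agent.TW.KumBreak
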