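import Fermat.Agent.TW.KumBreak.Allowed
import Fermat.Agent.CFT.Local.ExtDVROrd

/-!
# Program G / F3-(f1): Layer-B instantiation of (OUT)

`O` a complete discrete valuation ring with fraction field `K` of characteristic `0` and finite
residue field, `L/K` finite of degree `p = ramIdx O L` (totally ramified of degree `p`), integers
`integralClosure O L` (main's "Layer B" of `CFT/Local/ExtDVR*.lean`).

* `dvrOrd_algebraMap_eq_iff_addVal`: bridge `dvrOrd` ↔ `addVal`.
* `totRamP_intRing`: `TotRamP O (integralClosure O L) p`.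
* `kummer_out_field`: (OUT) for fields: if `L ∋ α`, `α ^ p = w ∈ K`, `σ α = ζ α` and the break is at
  most `e₁ / (p - 1)`, then `w = c ^ p * (1 + p a)` with `c : K`, `a : O`.
-/

set_option autoImplicit false

open IsLocalRing
open IsDiscreteValuationRing hiding maximalIdeal

namespace Fermat.Agent.TW.KumBreak

open Fermat.Agent.CFT

section Bridge

variable (B L : Type) [CommRing B] [IsDomain B] [IsDiscreteValuationRing B]
  [Field L] [Algebra B L] [IsFractionRing B L]

theorem dvrOrd_algebraMap_eq_natCast_iff {b : B} (hb : b ≠ 0) (n : ℕ) :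
    dvrOrd B L (algebraMap B L b) = n ↔ addVal B b = n := by
  obtain ⟨ϖ, hϖ⟩ := exists_irreducible B
  obtain ⟨m, u, hu⟩ := eq_unit_mul_pow_irreducible hb hϖ
  have h1 : addVal B b = m := addVal_def b u hϖ m hu
  have h2 : dvrOrd B L (algebraMap B L b) = m := by
    rw [hu, map_mul, map_pow, ← zpow_natCast, dvrOrd_unit_mul_zpow B L hϖ u m]
  rw [h1, h2]
  constructor
  · intro h; have : m = n := by exact_mod_cast h
    rw [this]
  · intro h; have : m = n := by exact_mod_cast h
    rw [this]

theorem dvrOrd_algebraMap_eq_toNat {b : B} (hb : b ≠ 0) :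
    dvrOrd B L (algebraMap B L b) = ((addVal B b).toNat : ℤ) := by
  obtain ⟨n, hn⟩ := addVal_natCast_of_ne_zero hb
  rw [(dvrOrd_algebraMap_eq_natCast_iff B L hb n).mpr hn, hn]
  simp

end Bridge

section TotRam

variable (O K : Type) [CommRing O] [IsDomain O] [IsDiscreteValuationRing O]
  [IsAdicComplete (maximalIdeal O) O]
  [Field K] [Algebra O K] [IsFractionRing O K] [CharZero K]
  (L : Type) [Field L] [Algebra K L] [FiniteDimensional K L] [Algebra O L] [IsScalarTower O K L]

include K in
/-- A totally ramified extension of degree `p` in Layer-B vocabulary gives `TotRamP`. -/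
theorem totRamP_intRing [IsDiscreteValuationRing (integralClosure O L)] {p : ℕ} (hp : p.Prime)
    (hdeg : Module.finrank K L = p) (he : ramIdx O L = p) (hpO : (p : O) ∈ maximalIdeal O) :
    TotRamP O (integralClosure O L) p := by
  have hfr := intRing_isFractionRing O K L
  have hloc := intRing_isLocalHom O K L
  refine ⟨hp, ?_, ?_, one_le_addVal_iff.mpr hpO⟩
  · -- ramification
    intro a
    by_cases ha : a = 0
    · subst ha
      rw [map_zero, addVal_zero, addVal_zero, ENat.mul_top (by exact_mod_cast hp.ne_zero)]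
    obtain ⟨ϖ, hϖ⟩ := exists_irreducible O
    obtain ⟨n, u, hu⟩ := eq_unit_mul_pow_irreducible ha hϖ
    have hva : addVal O a = n := addVal_def a u hϖ n hu
    have hϖne : algebraMap O (integralClosure O L) ϖ ≠ 0 := by
      intro h0
      exact hϖ.ne_zero (intRing_algebraMap_injective O K L (by rw [h0, map_zero]))
    have hvϖ : addVal (integralClosure O L) (algebraMap O (integralClosure O L) ϖ) = p := by
      rw [← dvrOrd_algebraMap_eq_natCast_iff (integralClosure O L) L hϖne,
        ← IsScalarTower.algebraMap_apply, dvrOrd_algebraMap_irreducible O K L hϖ, he]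
    have hvu : addVal (integralClosure O L) (algebraMap O (integralClosure O L) (u : O)) = 0 := by
      rw [addVal_eq_zero_iff]
      exact (u.isUnit.map (algebraMap O (integralClosure O L)))
    rw [hva, hu, map_mul, map_pow, addVal_mul, addVal_pow, hvu, hvϖ, zero_add]
    simp [mul_comm]
  · -- trivial residue extension
    have hf : inertDeg O L = 1 := by
      have h1 := ramIdx_mul_inertDeg O K L
      rw [he, hdeg] at h1
      exact Nat.eq_of_mul_eq_mul_left hp.pos (by rw [h1, mul_one])
    rw [inertDeg_eq_finrank O K L] at hf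
    have hsurj : Function.Surjective
        (algebraMap (ResidueField O) (ResidueField (integralClosure O L))) := by
      rw [Algebra.surjective_algebraMap_iff]
      exact (Subalgebra.bot_eq_top_of_finrank_eq_one hf).symm
    intro y
    obtain ⟨a', ha'⟩ := hsurj (residue _ y)
    obtain ⟨a, rfl⟩ := residue_surjective a'
    refine ⟨a, one_le_addVal_iff.mpr ?_⟩
    rw [← residue_eq_zero_iff, map_sub, ← ha', ResidueField.algebraMap_residue, sub_self]

omit [IsAdicComplete (maximalIdeal O) O] in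
/-- The residue field of `O` is perfect (finite of characteristic `p`). -/
theorem hperf_of_finite [Finite (ResidueField O)] {p : ℕ} (hp : p.Prime)
    (hpO : (p : O) ∈ maximalIdeal O) : ∀ a : O, ∃ t : O, 1 ≤ addVal O (a - t ^ p) := by
  have : Fact p.Prime := ⟨hp⟩
  have : CharP (ResidueField O) p := by
    rw [CharP.charP_iff_prime_eq_zero hp]
    have : residue O (p : O) = 0 := (residue_eq_zero_iff _).mpr hpO
    simpa using this
  intro a
  obtain ⟨t', ht'⟩ := surjective_frobenius (ResidueField O) p (residue O a)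
  obtain ⟨t, rfl⟩ := residue_surjective t'
  refine ⟨t, one_le_addVal_iff.mpr ?_⟩
  rw [← residue_eq_zero_iff, map_sub, map_pow, ← ht', frobenius_def, sub_self]

include K in
/-- **(OUT), Layer-B form.**  `L/K` totally ramified of degree `p` (integers `integralClosure O L`),
`α ∈ L` with `α ^ p = w ∈ K`, `σ α = ζ α` with `ζ` a primitive `p`-th root of unity.  If the break
`ord_L (σ ϖ - ϖ) - 1` is at most `e₁ / (p - 1)`, `e₁ = ord_K p`, then
`w ∈ (1 + p O) · K^{× p}`. -/
theorem kummer_out_field [IsDiscreteValuationRing (integralClosure O L)]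
    [IsFractionRing (integralClosure O L) L] [Finite (ResidueField O)]
    {p : ℕ} (hp : p.Prime) (hdeg : Module.finrank K L = p) (he : ramIdx O L = p)
    (hpO : (p : O) ∈ maximalIdeal O) (σ : L ≃ₐ[K] L)
    {ζ : K} (hζ : IsPrimitiveRoot ζ p) {α : L} {w : K} (hw : w ≠ 0)
    (hα : α ^ p = algebraMap K L w) (hσ : σ α = algebraMap K L ζ * α)
    {ϖ : integralClosure O L} (hϖ : Irreducible ϖ)
    (hbreak : ((p : ℤ) - 1) * (dvrOrd (integralClosure O L) L (σ (ϖ : L) - (ϖ : L)) - 1) ≤
      dvrOrd O K (p : K)) :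
    ∃ (c : K) (a : O), c ≠ 0 ∧ w = c ^ p * (1 + (p : K) * algebraMap O K a) := by
  have hT := totRamP_intRing O K L hp hdeg he hpO
  have hperf := hperf_of_finite O hp hpO
  have hinjOK : Function.Injective (algebraMap O K) := IsFractionRing.injective O K
  have hinjOL : Function.Injective (algebraMap O L) := by
    rw [IsScalarTower.algebraMap_eq O K L]
    exact (algebraMap K L).injective.comp hinjOK
  -- `ζ ∈ O`
  have hζint : IsIntegral O ζ :=
    IsIntegral.of_pow hp.pos (by rw [hζ.pow_eq_one]; exact isIntegral_one)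
  obtain ⟨ζ₀, hζ₀⟩ := IsIntegrallyClosed.isIntegral_iff.mp hζint
  have hζ₀p : IsPrimitiveRoot ζ₀ p := by
    rw [← hζ₀] at hζ
    exact hζ.of_map_of_injective hinjOK
  -- scale `w` into `O`
  obtain ⟨a, b, hb, hab⟩ := IsFractionRing.div_surjective (A := O) w
  have hb0 : b ≠ 0 := nonZeroDivisors.ne_zero hb
  have hbK : algebraMap O K b ≠ 0 := fun h0 => hb0 (hinjOK (by rw [h0, map_zero]))
  have ha0 : a ≠ 0 := by
    rintro rfl
    rw [map_zero, zero_div] at hab
    exact hw hab.symm
  obtain ⟨w₁, hw₁⟩ : ∃ w₁ : O, w₁ = a * b ^ (p - 1) := ⟨_, rfl⟩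
  have hw₁0 : w₁ ≠ 0 := by rw [hw₁]; exact mul_ne_zero ha0 (pow_ne_zero _ hb0)
  have hw₁K : algebraMap O K w₁ = w * algebraMap O K b ^ p := by
    rw [hw₁, ← hab, map_mul, map_pow]
    have : p = (p - 1) + 1 := by have := hp.pos; omega
    conv_rhs => rw [this, pow_succ]
    field_simp
  obtain ⟨α₁, hα₁⟩ : ∃ α₁ : L, α₁ = α * algebraMap O L b := ⟨_, rfl⟩
  have hα₁p : α₁ ^ p = algebraMap O L w₁ := by
    rw [hα₁, mul_pow, hα, IsScalarTower.algebraMap_apply O K L w₁, hw₁K, map_mul, map_pow,
      ← IsScalarTower.algebraMap_apply O K L b]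
  have hα₁mem : α₁ ∈ integralClosure O L :=
    IsIntegral.of_pow hp.pos (by rw [hα₁p]; exact isIntegral_algebraMap)
  have hσα₁ : σ α₁ = algebraMap K L ζ * α₁ := by
    rw [hα₁, map_mul, hσ, IsScalarTower.algebraMap_apply O K L b, σ.commutes]; ring
  -- the data in `B`
  obtain ⟨s, hs⟩ : ∃ s : integralClosure O L ≃ₐ[O] integralClosure O L,
      s = galRestrict O K L (integralClosure O L) σ := ⟨_, rfl⟩
  have hscoe : ∀ x : integralClosure O L, ((s x : integralClosure O L) : L) = σ (x : L) := by
    intro x; rw [hs]; exact galRestrict_coe O K L σ x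
  have hαB : (⟨α₁, hα₁mem⟩ : integralClosure O L) ^ p =
      algebraMap O (integralClosure O L) w₁ := by
    apply Subtype.ext
    rw [SubmonoidClass.coe_pow]
    exact hα₁p
  have hsB : s ⟨α₁, hα₁mem⟩ =
      algebraMap O (integralClosure O L) ζ₀ * (⟨α₁, hα₁mem⟩ : integralClosure O L) := by
    apply Subtype.ext
    rw [hscoe]
    change σ α₁ = algebraMap O L ζ₀ * α₁
    rw [hσα₁, IsScalarTower.algebraMap_apply O K L ζ₀, hζ₀]
  -- the break
  have hα₁0 : α₁ ≠ 0 := by
    intro h0
    rw [h0, zero_pow hp.ne_zero] at hα₁p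
    exact hw₁0 (hinjOL (by rw [← hα₁p, map_zero]))
  have hζ₀1 : ζ₀ - 1 ≠ 0 := by
    intro h0
    have : ζ₀ = 1 := by linear_combination h0
    exact hp.one_lt.ne' (hζ₀p.unique (this ▸ IsPrimitiveRoot.one))
  have hy0 : s ϖ - ϖ ≠ 0 := by
    intro h0
    have h1 := gl_one (s : integralClosure O L ≃+* integralClosure O L) (hT.hres s) hϖ
      (⟨α₁, hα₁mem⟩ : integralClosure O L)
    change addVal _ (s ϖ - ϖ) ≤ addVal _ (s ⟨α₁, hα₁mem⟩ - ⟨α₁, hα₁mem⟩) at h1
    rw [h0, addVal_zero, top_le_iff, addVal_eq_top_iff, hsB] at h1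
    have h2 : (algebraMap O (integralClosure O L) (ζ₀ - 1)) *
        (⟨α₁, hα₁mem⟩ : integralClosure O L) = 0 := by
      rw [map_sub, map_one]; linear_combination h1
    rcases mul_eq_zero.mp h2 with h3 | h3
    · exact hζ₀1 (intRing_algebraMap_injective O K L (by rw [h3, map_zero]))
    · exact hα₁0 (congrArg Subtype.val h3)
  obtain ⟨i, hi⟩ := addVal_natCast_of_ne_zero hy0
  have hiord : dvrOrd (integralClosure O L) L (σ (ϖ : L) - (ϖ : L)) = i := by
    have h1 := (dvrOrd_algebraMap_eq_natCast_iff (integralClosure O L) L hy0 i).mpr hi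
    have h2 : algebraMap (integralClosure O L) L (s ϖ - ϖ) = σ (ϖ : L) - (ϖ : L) := by
      change ((s ϖ - ϖ : integralClosure O L) : L) = _
      rw [Subalgebra.coe_sub, hscoe]
    rw [h2] at h1
    exact h1
  have hpO0 : (p : O) ≠ 0 := by
    intro h0
    have h1 : algebraMap O K (p : O) = 0 := by rw [h0]; simp
    have h2 : (p : K) = 0 := by simpa using h1
    exact hp.ne_zero (by exact_mod_cast h2)
  obtain ⟨e₁, he₁⟩ := addVal_natCast_of_ne_zero hpO0
  have he₁ord : dvrOrd O K (p : K) = e₁ := by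
    have h1 := (dvrOrd_algebraMap_eq_natCast_iff O K hpO0 e₁).mpr he₁
    have h2 : algebraMap O K (p : O) = (p : K) := by simp
    rw [h2] at h1
    exact h1
  rw [hiord, he₁ord] at hbreak
  have hbreak' : ((p - 1 : ℕ) : ℕ∞) * addVal (integralClosure O L) (s ϖ - ϖ) ≤
      addVal O (p : O) + ((p - 1 : ℕ) : ℕ∞) := by
    rw [hi, he₁, ← Nat.cast_mul, ← Nat.cast_add, Nat.cast_le]
    have hp1 : ((p - 1 : ℕ) : ℤ) = (p : ℤ) - 1 := by
      have := hp.pos
      omega
    have : ((p - 1 : ℕ) : ℤ) * (i : ℤ) ≤ (e₁ : ℤ) + ((p - 1 : ℕ) : ℤ) := by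
      rw [hp1]; linarith
    exact_mod_cast this
  obtain ⟨c, d, a', hc, hd, hcd⟩ := kummer_out hT s hζ₀p hperf hw₁0 hαB hsB hϖ hbreak'
  have hcK : algebraMap O K c ≠ 0 := fun h0 => hc (hinjOK (by rw [h0, map_zero]))
  have hdK : algebraMap O K d ≠ 0 := fun h0 => hd (hinjOK (by rw [h0, map_zero]))
  refine ⟨algebraMap O K d / (algebraMap O K c * algebraMap O K b), a',
    div_ne_zero hdK (mul_ne_zero hcK hbK), ?_⟩
  have h1 := congrArg (algebraMap O K) hcd
  rw [map_mul, map_pow, hw₁K, map_mul, map_pow, map_add, map_one, map_mul, map_natCast] at h1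
  rw [div_pow, mul_pow]
  field_simp
  linear_combination h1

end TotRam

end Fermat.Agent.TW.KumBreak
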