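import Fermat.Agent.TW.KumBreak.Kummer
import Fermat.Agent.TW.KumBreak.Improve

/-!
# Program G / F3-(f1): (OUT) — a Kummer layer with small break is "peu ramifiée"

Setting as in `Kummer.lean` (`TotRamP A B p`, `s : B ≃ₐ[A] B`, `ζ : A` a primitive `p`-th root of
unity, `α : B` with `α ^ p = w ∈ A`, `s α = ζ α`), `A` with perfect residue field.

`kummer_out`: if the break of the layer is at most `e₁ / (p - 1)` (`e₁ = v_A p`), in the form
`(p - 1) · v_B (s ϖ - ϖ) ≤ v_A p + (p - 1)`, then `w ∈ (1 + p A) · (Frac A)^{× p}`, in the form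
`∃ c d a : A, c ≠ 0 ∧ d ≠ 0 ∧ w * c ^ p = d ^ p * (1 + p * a)`.
-/

set_option autoImplicit false

namespace Fermat.Agent.TW.KumBreak

open IsDiscreteValuationRing

variable {A B : Type*} [CommRing A] [IsDomain A] [IsDiscreteValuationRing A]
  [CommRing B] [IsDomain B] [IsDiscreteValuationRing B] [Algebra A B] {p : ℕ}

variable (h : TotRamP A B p) (s : B ≃ₐ[A] B)

include h

/-- The unit case of (OUT). -/
theorem kummer_out_unit {ζ : A} (hζ : IsPrimitiveRoot ζ p)
    (hperf : ∀ a : A, ∃ t : A, 1 ≤ addVal A (a - t ^ p))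
    {α : B} {w : A} (hw : IsUnit w) (hα : α ^ p = algebraMap A B w)
    (hs : s α = algebraMap A B ζ * α) {ϖ : B} (hϖ : Irreducible ϖ)
    (hbreak : ((p - 1 : ℕ) : ℕ∞) * addVal B (s ϖ - ϖ) ≤ addVal A (p : A) + ((p - 1 : ℕ) : ℕ∞)) :
    ∃ (c : Aˣ) (a : A), w * (c : A) ^ p = 1 + p * a := by
  have hp := h.prime
  have hp2 : 2 ≤ p := hp.two_le
  -- numerical data
  have hζ1 : ζ - 1 ≠ 0 := by
    intro h0
    have : ζ = 1 := by linear_combination h0
    exact hp.one_lt.ne' (hζ.unique (this ▸ IsPrimitiveRoot.one))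
  obtain ⟨z, hz⟩ := addVal_natCast_of_ne_zero hζ1
  have hZ := addVal_zeta_sub_one hp hζ
  rw [hz] at hZ
  have he1 : addVal A (p : A) = (((p - 1) * z : ℕ) : ℕ∞) := by rw [← hZ]; push_cast; rfl
  have hz1 : 1 ≤ z := by
    have := h.resChar
    rw [he1] at this
    have h1 : 1 ≤ (p - 1) * z := by exact_mod_cast this
    rcases Nat.eq_zero_or_pos z with rfl | hpos
    · simp at h1
    · exact hpos
  -- the break as a natural number
  have hi_ne : s ϖ - ϖ ≠ 0 := by
    intro h0
    rw [h0, addVal_zero, ENat.mul_top (by exact_mod_cast (by omega : p - 1 ≠ 0)), he1] at hbreak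
    rw [← Nat.cast_add] at hbreak
    exact absurd (top_le_iff.mp hbreak) (ENat.natCast_ne_top _)
  obtain ⟨i, hi⟩ := addVal_natCast_of_ne_zero hi_ne
  rw [hi, he1] at hbreak
  have hbreak' : (p - 1) * i ≤ (p - 1) * z + (p - 1) := by exact_mod_cast hbreak
  -- the induction
  have key : ∀ j : ℕ, 1 ≤ j → j ≤ (p - 1) * z →
      ∃ c : Aˣ, (j : ℕ∞) ≤ addVal A (w * (c : A) ^ p - 1) := by
    intro j hj1
    induction j, hj1 using Nat.le_induction with
    | base =>
      intro _
      obtain ⟨c, hc⟩ := exists_unit_pow_mul_sub_one hp hperf hw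
      exact ⟨c, by exact_mod_cast hc⟩
    | succ j hj1 ih =>
      intro hjle
      obtain ⟨c, hc⟩ := ih (by omega)
      by_cases hdone : ((j + 1 : ℕ) : ℕ∞) ≤ addVal A (w * (c : A) ^ p - 1)
      · exact ⟨c, hdone⟩
      -- valuation exactly `j`
      set x : A := w * (c : A) ^ p - 1 with hx
      have hvx : addVal A x = j := by
        refine le_antisymm ?_ hc
        by_contra hcon
        rw [not_le] at hcon
        exact hdone (by
          push_cast
          exact Order.add_one_le_of_lt hcon)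
      have hα' : (α * algebraMap A B (c : A)) ^ p = 1 + algebraMap A B x := by
        rw [mul_pow, hα, ← map_pow, ← map_mul, hx, map_sub, map_one]; ring
      have hs' : s (α * algebraMap A B (c : A)) = algebraMap A B ζ * (α * algebraMap A B (c : A)) := by
        rw [map_mul, hs, s.commutes]; ring
      by_cases hpj : p ∣ j
      · obtain ⟨c', hc'⟩ := improve_of_dvd hp hperf he1 hvx hpj hj1 (by
          have h1 : (p - 1) * j < (p - 1) * ((p - 1) * z) := Nat.mul_lt_mul_of_pos_left (by omega) (by omega)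
          have h2 : (p - 1) * ((p - 1) * z) ≤ p * ((p - 1) * z) := Nat.mul_le_mul_right _ (by omega)
          omega)
        refine ⟨c * c', ?_⟩
        have : w * ((c * c' : Aˣ) : A) ^ p - 1 = (1 + x) * (c' : A) ^ p - 1 := by
          rw [hx]; push_cast; ring
        rw [this]; exact hc'
      · exfalso
        have hKB := kummer_break_unit h s hζ hα' hs' hvx hpj (by
          rw [he1]
          have h1 : (p - 1) * j < (p - 1) * ((p - 1) * z) := Nat.mul_lt_mul_of_pos_left (by omega) (by omega)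
          have h2 : (p - 1) * ((p - 1) * z) ≤ p * ((p - 1) * z) := Nat.mul_le_mul_right _ (by omega)
          exact_mod_cast lt_of_lt_of_le h1 h2) hϖ
        rw [hi, hz] at hKB
        have hKB' : i + j = 1 + p * z := by exact_mod_cast hKB
        -- (p-1) i ≤ (p-1) z + (p-1) and i = 1 + p z - j  give  (p-1) z ≤ j
        have h1 : (p - 1) * (i + j) = (p - 1) * (1 + p * z) := by rw [hKB']
        have h2 : (p - 1) * (1 + p * z) ≤ (p - 1) * z + (p - 1) + (p - 1) * j := by
          rw [← h1, Nat.mul_add]; omega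
        have h3 : (p - 1) * (p * z) ≤ (p - 1) * (z + j) := by
          rw [Nat.mul_add] at h2 ⊢; omega
        have h4 : p * z ≤ z + j := Nat.le_of_mul_le_mul_left h3 (by omega)
        have h5 : p * z = (p - 1) * z + z := by
          obtain ⟨q, rfl⟩ : ∃ q, p = q + 1 := ⟨p - 1, by omega⟩
          simp; ring
        omega
  obtain ⟨c, hc⟩ := key ((p - 1) * z) (by
    have : 1 ≤ p - 1 := by omega
    exact Nat.one_le_iff_ne_zero.mpr (Nat.mul_ne_zero (by omega) (by omega))) le_rfl
  rw [← he1, addVal_le_iff_dvd] at hc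
  obtain ⟨a, ha⟩ := hc
  exact ⟨c, a, by linear_combination ha⟩

/-- **(OUT)** A Kummer layer `Frac B = Frac A (w^{1/p})` which is totally ramified of degree `p`
and whose break is at most `e₁ / (p - 1)` has `w ∈ (1 + p A) · (Frac A)^{× p}`. -/
theorem kummer_out {ζ : A} (hζ : IsPrimitiveRoot ζ p)
    (hperf : ∀ a : A, ∃ t : A, 1 ≤ addVal A (a - t ^ p))
    {α : B} {w : A} (hw : w ≠ 0) (hα : α ^ p = algebraMap A B w)
    (hs : s α = algebraMap A B ζ * α) {ϖ : B} (hϖ : Irreducible ϖ)
    (hbreak : ((p - 1 : ℕ) : ℕ∞) * addVal B (s ϖ - ϖ) ≤ addVal A (p : A) + ((p - 1 : ℕ) : ℕ∞)) :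
    ∃ c d a : A, c ≠ 0 ∧ d ≠ 0 ∧ w * c ^ p = d ^ p * (1 + p * a) := by
  have hp := h.prime
  have hp2 : 2 ≤ p := hp.two_le
  obtain ⟨c₀, hc₀⟩ := addVal_natCast_of_ne_zero hw
  by_cases hpc : p ∣ c₀
  · obtain ⟨k, rfl⟩ := hpc
    obtain ⟨π, hπ⟩ := exists_irreducible A
    obtain ⟨m, u, hu⟩ := eq_unit_mul_pow_irreducible hw hπ
    have hm : m = p * k := by
      have := addVal_def w u hπ m hu
      rw [hc₀] at this; exact_mod_cast this.symm
    subst hm
    -- valuation of `α`
    have hα0 : α ≠ 0 := by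
      rintro rfl
      rw [zero_pow hp.ne_zero] at hα
      exact hw (h.algebraMap_injective (by rw [← hα, map_zero]))
    obtain ⟨g, hg⟩ := addVal_natCast_of_ne_zero hα0
    have hgk : g = p * k := by
      have h1 : addVal B (α ^ p) = p * ((p * k : ℕ) : ℕ∞) := by rw [hα, h.ram, hc₀]
      rw [addVal_pow, hg] at h1
      simp only [nsmul_eq_mul] at h1
      have : p * g = p * (p * k) := by exact_mod_cast h1
      exact Nat.eq_of_mul_eq_mul_left hp.pos this
    have hdvd : algebraMap A B (π ^ k) ∣ α := by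
      rw [← addVal_le_iff_dvd, h.ram, addVal_pow, addVal_uniformizer hπ, hg, hgk]
      push_cast; simp
    obtain ⟨α₀, hα₀⟩ := hdvd
    have hπk0 : algebraMap A B (π ^ k) ≠ 0 := by
      intro h0
      exact pow_ne_zero k hπ.ne_zero (h.algebraMap_injective (by rw [h0, map_zero]))
    have hα₀p : α₀ ^ p = algebraMap A B (u : A) := by
      have h1 : algebraMap A B (π ^ k) ^ p * α₀ ^ p = algebraMap A B (π ^ k) ^ p * algebraMap A B (u : A) := by
        rw [← mul_pow, ← hα₀, hα, hu, ← map_pow, ← map_mul, ← pow_mul, mul_comm k p]; ring_nf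
      exact mul_left_cancel₀ (pow_ne_zero p hπk0) h1
    have hsα₀ : s α₀ = algebraMap A B ζ * α₀ := by
      have h1 : algebraMap A B (π ^ k) * s α₀ = algebraMap A B (π ^ k) * (algebraMap A B ζ * α₀) := by
        have := hs
        rw [hα₀, map_mul, s.commutes] at this
        rw [this]; ring
      exact mul_left_cancel₀ hπk0 h1
    obtain ⟨c, a, hca⟩ := kummer_out_unit h s hζ hperf u.isUnit hα₀p hsα₀ hϖ hbreak
    refine ⟨c, π ^ k, a, c.ne_zero, pow_ne_zero k hπ.ne_zero, ?_⟩
    rw [hu, ← pow_mul, mul_comm k p]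
    linear_combination π ^ (p * k) * hca
  · exfalso
    have hKB := kummer_break_val h s hα hs hc₀ hpc hϖ
    have hζ1 : ζ - 1 ≠ 0 := by
      intro h0
      have : ζ = 1 := by linear_combination h0
      exact hp.one_lt.ne' (hζ.unique (this ▸ IsPrimitiveRoot.one))
    obtain ⟨z, hz⟩ := addVal_natCast_of_ne_zero hζ1
    have hZ := addVal_zeta_sub_one hp hζ
    rw [hz] at hZ hKB
    have he1 : addVal A (p : A) = (((p - 1) * z : ℕ) : ℕ∞) := by rw [← hZ]; push_cast; rfl
    have hz1 : 1 ≤ z := by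
      have := h.resChar
      rw [he1] at this
      have h1 : 1 ≤ (p - 1) * z := by exact_mod_cast this
      rcases Nat.eq_zero_or_pos z with rfl | hpos
      · simp at h1
      · exact hpos
    rw [hKB, he1] at hbreak
    have hb : (p - 1) * (1 + p * z) ≤ (p - 1) * z + (p - 1) := by exact_mod_cast hbreak
    have h3 : (p - 1) * (p * z) ≤ (p - 1) * z := by
      rw [Nat.mul_add] at hb; omega
    have h4 : p * z ≤ z := Nat.le_of_mul_le_mul_left h3 (by omega)
    have h5 : 2 * z ≤ p * z := Nat.mul_le_mul_right z hp2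
    omega

end Fermat.Agent.TW.KumBreak
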