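import Fermat.Agent.TW.KumBreak.LayerB
import Fermat.Agent.CFT.Local.UnramCompositum
import Fermat.Agent.CFT.Local.ExtDVRTower

/-!
# Program G / F3-(f1), (A5) seam (S2): unramified descent of "allowed" classes

* `allowed_descent_field` : the field form of `allowed_descent` (`Level.lean`);
* `addVal_algebraMap_intRing` : `v_L (a) = e · v_K (a)` in Layer-B vocabulary;
* `isUnramExt_adjoin_simple` : `E(θ) / E` is unramified when `θ` is a root of a monic polynomial over
  `O` with separable reduction;
* `allowed_descent_unram` : (S2), in the "elements of `L` with membership" dialect.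
-/

set_option autoImplicit false
set_option linter.unusedSectionVars false

open IsLocalRing Polynomial
open IsDiscreteValuationRing hiding maximalIdeal

namespace Fermat.Agent.TW.KumBreak

open Fermat.Agent.CFT

section Abstract

variable {A A'' F F'' : Type*} [CommRing A] [IsDomain A] [IsDiscreteValuationRing A]
  [CommRing A''] [IsDomain A''] [IsDiscreteValuationRing A''] [Algebra A A'']
  [Field F] [Algebra A F] [IsFractionRing A F] [Field F''] [Algebra A'' F''] [IsFractionRing A'' F'']

/-- Field form of `allowed_descent`. -/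
theorem allowed_descent_field (φ : F →+* F'')
    (hφ : ∀ a : A, φ (algebraMap A F a) = algebraMap A'' F'' (algebraMap A A'' a))
    {p : ℕ} (hp : p.Prime) {e'' : ℕ} (he : ¬ p ∣ e'')
    (hram : ∀ a : A, addVal A'' (algebraMap A A'' a) = e'' * addVal A a)
    (hpA : 1 ≤ addVal A (p : A)) (hp0 : (p : A) ≠ 0)
    (hperf : ∀ a : A, ∃ t : A, 1 ≤ addVal A (a - t ^ p))
    {w : F} (hw : w ≠ 0)
    (h : ∃ (c : F'') (a : A''), c ≠ 0 ∧ φ w = c ^ p * (1 + (p : F'') * algebraMap A'' F'' a)) :
    ∃ (c : F) (a : A), c ≠ 0 ∧ w = c ^ p * (1 + (p : F) * algebraMap A F a) := by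
  have hp1 : p ≠ 0 := hp.ne_zero
  have hinjF : Function.Injective (algebraMap A F) := IsFractionRing.injective A F
  have hinjF'' : Function.Injective (algebraMap A'' F'') := IsFractionRing.injective A'' F''
  obtain ⟨n, d, hd, hnd⟩ := IsFractionRing.div_surjective (A := A) w
  have hd0 : d ≠ 0 := nonZeroDivisors.ne_zero hd
  have hD0 : algebraMap A F d ≠ 0 := fun h0 => hd0 (hinjF (h0.trans (map_zero _).symm))
  have hn0 : n ≠ 0 := by
    rintro rfl
    rw [map_zero, zero_div] at hnd
    exact hw hnd.symm
  have hwd : algebraMap A F n = w * algebraMap A F d := by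
    rw [← hnd, div_mul_cancel₀ _ hD0]
  set w' : A := n * d ^ (p - 1) with hw'
  have hw'0 : w' ≠ 0 := mul_ne_zero hn0 (pow_ne_zero _ hd0)
  have h1 : algebraMap A F w' = w * algebraMap A F d ^ p := by
    rw [hw', map_mul, map_pow, hwd, mul_assoc, mul_pow_sub_one hp1]
  obtain ⟨c, a'', hc0, hc⟩ := h
  obtain ⟨c₁, c₂, hc₂, hc12⟩ := IsFractionRing.div_surjective (A := A'') c
  have hc₂0 : c₂ ≠ 0 := nonZeroDivisors.ne_zero hc₂
  have hC₂0 : algebraMap A'' F'' c₂ ≠ 0 :=
    fun h0 => hc₂0 (hinjF'' (h0.trans (map_zero _).symm))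
  have hc₁0 : c₁ ≠ 0 := by
    rintro rfl
    rw [map_zero, zero_div] at hc12
    exact hc0 hc12.symm
  have hφD0 : φ (algebraMap A F d) ≠ 0 := (map_ne_zero φ).mpr hD0
  have hd''0 : algebraMap A A'' d ≠ 0 := by
    intro h0
    apply hφD0
    rw [hφ, h0, map_zero]
  -- `w'` is allowed over `A''`
  have hall : Allowed p (algebraMap A A'' w') := by
    refine ⟨c₂, c₁ * algebraMap A A'' d, a'', hc₂0, mul_ne_zero hc₁0 hd''0, ?_⟩
    apply hinjF''
    have e1 : algebraMap A'' F'' (algebraMap A A'' w') = φ w * φ (algebraMap A F d) ^ p := by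
      rw [← hφ, h1, map_mul, map_pow]
    have e2 : algebraMap A'' F'' c₁ = c * algebraMap A'' F'' c₂ := by
      rw [← hc12, div_mul_cancel₀ _ hC₂0]
    rw [map_mul, map_pow, e1, hc, map_mul, map_pow, map_mul, e2, ← hφ, map_add, map_one, map_mul,
      map_natCast]
    ring
  obtain ⟨c', d', a, hc'0, hd'0, hcd⟩ := allowed_descent hp he hram hpA hp0 hperf hw'0 hall
  have hC'0 : algebraMap A F c' ≠ 0 := fun h0 => hc'0 (hinjF (h0.trans (map_zero _).symm))
  have hD'0 : algebraMap A F d' ≠ 0 := fun h0 => hd'0 (hinjF (h0.trans (map_zero _).symm))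
  refine ⟨algebraMap A F d' / (algebraMap A F c' * algebraMap A F d), a,
    div_ne_zero hD'0 (mul_ne_zero hC'0 hD0), ?_⟩
  have e3 := congrArg (algebraMap A F) hcd
  rw [map_mul, map_pow, h1, map_mul, map_pow, map_add, map_one, map_mul, map_natCast] at e3
  have hCD : (algebraMap A F c' * algebraMap A F d) ^ p ≠ 0 :=
    pow_ne_zero _ (mul_ne_zero hC'0 hD0)
  rw [div_pow, div_mul_eq_mul_div, eq_div_iff hCD, mul_pow, ← e3]
  ring

end Abstract

section LayerB

variable (O K : Type) [CommRing O] [IsDomain O] [IsDiscreteValuationRing O]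
  [IsAdicComplete (maximalIdeal O) O]
  [Field K] [Algebra O K] [IsFractionRing O K] [CharZero K]
  (L : Type) [Field L] [Algebra K L] [FiniteDimensional K L] [Algebra O L] [IsScalarTower O K L]

include K in
/-- `v_L (a) = e(L/K) · v_K (a)` for `a ∈ O`. -/
theorem addVal_algebraMap_intRing [IsDiscreteValuationRing (integralClosure O L)] (a : O) :
    addVal (integralClosure O L) (algebraMap O (integralClosure O L) a) =
      (ramIdx O L : ℕ∞) * addVal O a := by
  have hfr := intRing_isFractionRing O K L
  have hloc := intRing_isLocalHom O K L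
  have hepos : ramIdx O L ≠ 0 := (ramIdx_pos O K L).ne'
  by_cases ha : a = 0
  · subst ha
    rw [map_zero, addVal_zero, addVal_zero, ENat.mul_top (by exact_mod_cast hepos)]
  obtain ⟨ϖ, hϖ⟩ := exists_irreducible O
  obtain ⟨n, u, hu⟩ := eq_unit_mul_pow_irreducible ha hϖ
  have hva : addVal O a = n := addVal_def a u hϖ n hu
  have hϖne : algebraMap O (integralClosure O L) ϖ ≠ 0 := by
    intro h0
    exact hϖ.ne_zero (intRing_algebraMap_injective O K L (by rw [h0, map_zero]))
  have hvϖ : addVal (integralClosure O L) (algebraMap O (integralClosure O L) ϖ) =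
      (ramIdx O L : ℕ) := by
    rw [← dvrOrd_algebraMap_eq_natCast_iff (integralClosure O L) L hϖne,
      ← IsScalarTower.algebraMap_apply, dvrOrd_algebraMap_irreducible O K L hϖ]
  have hvu : addVal (integralClosure O L) (algebraMap O (integralClosure O L) (u : O)) = 0 := by
    rw [addVal_eq_zero_iff]
    exact (u.isUnit.map (algebraMap O (integralClosure O L)))
  rw [hva, hu, map_mul, map_pow, addVal_mul, addVal_pow, hvu, hvϖ, zero_add]
  simp [mul_comm]

end LayerB

section Unram

variable (O K : Type) [CommRing O] [IsDomain O] [IsDiscreteValuationRing O]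
  [IsAdicComplete (maximalIdeal O) O] [Finite (ResidueField O)]
  [Field K] [Algebra O K] [IsFractionRing O K] [CharZero K]
  (L : Type) [Field L] [Algebra K L] [FiniteDimensional K L] [Algebra O L] [IsScalarTower O K L]

/-- The composite `O → O_E → E → E'' → L` is `algebraMap O L`. -/
theorem algebraMap_comp_eq (E : IntermediateField K L) (E'' : IntermediateField E L) :
    ((algebraMap E'' L).comp ((algebraMap (integralClosure O E) E'').comp
      (algebraMap O (integralClosure O E)))) = algebraMap O L :=
  RingHom.ext fun _ => rfl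

/-- Integrality over `O` (seen in `L`) gives integrality over the integers of `E`. -/
theorem isIntegral_intRing_of_isIntegral (E : IntermediateField K L) (E'' : IntermediateField E L)
    (x : E'') (hx : IsIntegral O ((x : L))) : IsIntegral (integralClosure O E) x := by
  obtain ⟨q, hq, hq0⟩ := hx
  refine ⟨q.map (algebraMap O (integralClosure O E)), hq.map _, ?_⟩
  apply (algebraMap E'' L).injective
  rw [eval₂_map, hom_eval₂, map_zero, algebraMap_comp_eq O K L E E'']
  exact hq0

set_option synthInstance.maxHeartbeats 400000 in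
include K in
/-- `E(θ) / E` is unramified when `θ` is a root of a monic polynomial over `O` with separable
reduction. -/
theorem isUnramExt_adjoin_simple (E : IntermediateField K L)
    [IsLocalRing (integralClosure O E)] {g : O[X]} (hg : g.Monic)
    (hsep : (g.map (residue O)).Separable) (θ : L) (hθ : aeval θ g = 0) :
    IsUnramExt (integralClosure O E) (IntermediateField.adjoin E {θ}) := by
  have := intRing_isDiscreteValuationRing O K E
  have := intRing_isFractionRing O K E
  have := intRing_isAdicComplete O K E
  have := intRing_finite_residueField O K E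
  have := intRing_isLocalHom O K E
  have := tower_charZero K E
  set θ'' : IntermediateField.adjoin E {θ} := ⟨θ, IntermediateField.mem_adjoin_simple_self E θ⟩
    with hθ''
  have hθint : IsIntegral O (((θ'' : IntermediateField.adjoin E {θ}) : L)) :=
    ⟨g, hg, by rw [← aeval_def]; exact hθ⟩
  have hint : IsIntegral (integralClosure O E) θ'' :=
    isIntegral_intRing_of_isIntegral O K L E _ θ'' hθint
  set gA : (integralClosure O E)[X] := g.map (algebraMap O (integralClosure O E)) with hgA
  have hgAmon : gA.Monic := hg.map _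
  have hsepA : (gA.map (residue (integralClosure O E))).Separable := by
    have h1 : gA.map (residue (integralClosure O E)) = (g.map (residue O)).map
        (algebraMap (ResidueField O) (ResidueField (integralClosure O E))) := by
      rw [hgA, Polynomial.map_map, Polynomial.map_map]
      rfl
    rw [h1]
    exact hsep.map
  have hθ'0 : aeval (⟨θ'', hint⟩ : integralClosure (integralClosure O E)
      (IntermediateField.adjoin E {θ})) gA = 0 := by
    apply Subtype.ext
    rw [← Subalgebra.aeval_coe]
    apply (algebraMap (IntermediateField.adjoin E {θ}) L).injective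
    rw [aeval_def, hgA, eval₂_map, hom_eval₂, algebraMap_comp_eq O K L E _]
    simpa [aeval_def] using hθ
  have hgen : Algebra.adjoin E {((⟨θ'', hint⟩ : integralClosure (integralClosure O E)
      (IntermediateField.adjoin E {θ})) : IntermediateField.adjoin E {θ})} = ⊤ := by
    have hintE : IsIntegral E θ := Algebra.IsIntegral.isIntegral θ
    have h := (IntermediateField.adjoin.powerBasis hintE).adjoin_gen_eq_top
    rw [IntermediateField.adjoin.powerBasis_gen] at h
    exact h
  exact (isUnramExt_of_separable_root (K := E) (L := IntermediateField.adjoin E {θ})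
    hgAmon hsepA ⟨θ'', hint⟩ hθ'0 hgen).1

end Unram

section Final

variable (O K : Type) [CommRing O] [IsDomain O] [IsDiscreteValuationRing O]
  [IsAdicComplete (maximalIdeal O) O]
  [Field K] [Algebra O K] [IsFractionRing O K] [CharZero K]
  (L : Type) [Field L] [Algebra K L] [FiniteDimensional K L] [Algebra O L] [IsScalarTower O K L]
  [Finite (ResidueField O)]

include K in
/-- An unramified `K₀ / K` is generated by an element `θ` which is a root of a monic polynomial over
`O` with separable reduction; then `K₀ ⊔ E ⊆ E(θ)`. -/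
theorem exists_sup_le_adjoin_simple (K₀ E : IntermediateField K L) (hunr : IsUnramExt O K₀) :
    ∃ (g : O[X]) (θ : L), g.Monic ∧ (g.map (residue O)).Separable ∧ aeval θ g = 0 ∧
      ∀ x : L, x ∈ K₀ ⊔ E → x ∈ IntermediateField.adjoin E {θ} := by
  obtain ⟨g, θ, hg, hdeg, hθ⟩ := exists_isUnramPoly_root_of_isUnramExt (K := K) hunr
  have hsep : (g.map (residue O)).Separable :=
    PerfectField.separable_of_irreducible hg.irreducible_map
  have hθK₀ : aeval (θ : K₀) g = 0 := by
    rw [Subalgebra.aeval_coe, hθ]; rfl
  have hsc := tower_isScalarTower_O_L_M O K K₀ L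
  have hθL : aeval (((θ : K₀) : L)) g = 0 := by
    rw [show (((θ : K₀) : L)) = algebraMap K₀ L (θ : K₀) from rfl, aeval_algebraMap_apply, hθK₀,
      map_zero]
  have htop : Algebra.adjoin K {(θ : K₀)} = ⊤ := adjoin_root_eq_top hg (θ : K₀) hθK₀ hdeg.symm
  refine ⟨g, ((θ : K₀) : L), hg.monic, hsep, hθL, ?_⟩
  have hsub : K₀ ⊔ E ≤ (IntermediateField.adjoin E {(((θ : K₀) : L))}).restrictScalars K := by
    refine sup_le ?_ ?_
    · intro x hx
      have h1 : (⟨x, hx⟩ : K₀) ∈ Algebra.adjoin K {(θ : K₀)} := htop ▸ Algebra.mem_top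
      rw [Algebra.adjoin_singleton_eq_range_aeval] at h1
      obtain ⟨q, hq⟩ := h1
      have h2 : x = aeval (((θ : K₀) : L)) q := by
        have h3 := congrArg (algebraMap K₀ L) hq
        rw [AlgHom.toRingHom_eq_coe, RingHom.coe_coe, ← aeval_algebraMap_apply] at h3
        exact h3.symm
      rw [IntermediateField.mem_restrictScalars, h2, ← aeval_map_algebraMap E]
      exact IntermediateField.algebra_adjoin_le_adjoin E _ (aeval_mem_adjoin_singleton E _)
    · intro x hx
      rw [IntermediateField.mem_restrictScalars]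
      exact IntermediateField.algebraMap_mem _ (⟨x, hx⟩ : E)
  exact fun x hx => hsub hx

set_option synthInstance.maxHeartbeats 400000 in
include K in
/-- **(S2)** Unramified descent of allowed classes, in the "elements of `L`" dialect. -/
theorem allowed_descent_unram {p : ℕ} (hp : p.Prime) (hpO : ((p : ℕ) : O) ∈ maximalIdeal O)
    (K₀ E : IntermediateField K L) (hunr : IsUnramExt O K₀) {w : L} (hwE : w ∈ E) (hw0 : w ≠ 0)
    (h : ∃ c a : L, c ∈ K₀ ⊔ E ∧ c ≠ 0 ∧ a ∈ K₀ ⊔ E ∧ IsIntegral O a ∧
      w = c ^ p * (1 + (p : L) * a)) :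
    ∃ c a : L, c ∈ E ∧ c ≠ 0 ∧ a ∈ E ∧ IsIntegral O a ∧ w = c ^ p * (1 + (p : L) * a) := by
  obtain ⟨g, θ, hgmon, hsep, hθ, hsub⟩ := exists_sup_le_adjoin_simple O K L K₀ E hunr
  -- the Layer-B block `(O, K, E)`
  have := intRing_isDiscreteValuationRing O K E
  have := intRing_isFractionRing O K E
  have := intRing_isAdicComplete O K E
  have := intRing_finite_residueField O K E
  have hloc := intRing_isLocalHom O K E
  have := tower_charZero K E
  have hscE := tower_isScalarTower_O_L_M O K E L
  -- the Layer-B block `(O_E, E, E(θ))`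
  have := intRing_isDiscreteValuationRing (integralClosure O E) E (IntermediateField.adjoin E {θ})
  have := intRing_isFractionRing (integralClosure O E) E (IntermediateField.adjoin E {θ})
  have hunr'' := isUnramExt_adjoin_simple O K L E hgmon hsep θ hθ
  have he'' : ramIdx (integralClosure O E) (IntermediateField.adjoin E {θ}) = 1 :=
    (isUnramExt_iff_ramIdx (integralClosure O E) E (IntermediateField.adjoin E {θ})).mp hunr''
  have hram : ∀ a : integralClosure O E,
      addVal (integralClosure (integralClosure O E) (IntermediateField.adjoin E {θ}))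
        (algebraMap (integralClosure O E)
          (integralClosure (integralClosure O E) (IntermediateField.adjoin E {θ})) a) =
      ((1 : ℕ) : ℕ∞) * addVal (integralClosure O E) a := by
    intro a
    rw [addVal_algebraMap_intRing (integralClosure O E) E (IntermediateField.adjoin E {θ}) a, he'']
  have hpA : ((p : ℕ) : integralClosure O E) ∈ maximalIdeal (integralClosure O E) := by
    have : ((p : ℕ) : integralClosure O E) = algebraMap O (integralClosure O E) (p : O) := by simp
    rw [this, mem_maximalIdeal, mem_nonunits_iff]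
    rw [mem_maximalIdeal, mem_nonunits_iff] at hpO
    exact fun hu => hpO (isUnit_of_map_unit (algebraMap O (integralClosure O E)) _ hu)
  have hp0 : ((p : ℕ) : integralClosure O E) ≠ 0 := by
    intro h0
    have h1 := congrArg (algebraMap (integralClosure O E) E) h0
    rw [map_natCast, map_zero] at h1
    exact hp.ne_zero (by exact_mod_cast h1)
  have hperf := hperf_of_finite (integralClosure O E) hp hpA
  obtain ⟨c, a, hc, hc0, ha, haint, hw⟩ := h
  -- the data in `E(θ)`
  have hwE0 : (⟨w, hwE⟩ : E) ≠ 0 := fun h0 => hw0 (congrArg Subtype.val h0)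
  have hc''0 : (⟨c, hsub c hc⟩ : IntermediateField.adjoin E {θ}) ≠ 0 :=
    fun h0 => hc0 (congrArg Subtype.val h0)
  have haint'' : IsIntegral (integralClosure O E)
      (⟨a, hsub a ha⟩ : IntermediateField.adjoin E {θ}) :=
    isIntegral_intRing_of_isIntegral O K L E _ ⟨a, hsub a ha⟩ haint
  obtain ⟨cE, aA, hcE0, hweq⟩ := allowed_descent_field
    (A := integralClosure O E)
    (A'' := integralClosure (integralClosure O E) (IntermediateField.adjoin E {θ}))
    (F := E) (F'' := IntermediateField.adjoin E {θ})
    (algebraMap E (IntermediateField.adjoin E {θ})) (fun _ => rfl) hp (e'' := 1)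
    (Nat.dvd_one.not.mpr hp.ne_one) hram (one_le_addVal_iff.mpr hpA) hp0 hperf hwE0
    ⟨⟨c, hsub c hc⟩, ⟨⟨a, hsub a ha⟩, haint''⟩, hc''0, by
      apply Subtype.ext
      have hcoe : ((((p : ℕ) : IntermediateField.adjoin E {θ}) : L)) = (p : L) := by simp
      show w = c ^ p * (1 + (((p : ℕ) : IntermediateField.adjoin E {θ}) : L) * a)
      rw [hcoe]
      exact hw⟩
  refine ⟨(cE : L), ((aA : E) : L), cE.2, fun h0 => hcE0 (Subtype.ext h0), (aA : E).2, ?_, ?_⟩
  · exact (aA.2 : IsIntegral O (aA : E)).map (IsScalarTower.toAlgHom O E L)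
  · have := congrArg (Subtype.val : E → L) hweq
    simpa using this

end Final



end Fermat.Agent.TW.KumBreak
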