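import Mathlib

/-!
# Program G / F3 seam (A5): Galois theory of a Kummer layer inside a finite Galois extension

`L / K` finite Galois, `K₁` an intermediate field containing a primitive `p`-th root of unity `ζ`
(`p` prime), `β₀ ∈ L` nonzero with `β₀ ^ p ∈ K₁`, `β₀ ∉ K₁`, `M := K₁ ⊔ K⟮β₀⟯`.

* `exists_not_fixed` : some `σ ∈ Gal(L/K₁)` moves `β₀`;
* `isPrimitiveRoot_div` : then `σ β₀ / β₀` is a primitive `p`-th root of unity;
* `div_mem_of_pow_mem` : `τ β₀ / β₀ ∈ K₁` for all `τ ∈ Gal(L/K₁)`;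
* `mem_fixingSubgroup_sup_adjoin_iff` : `Gal(L/M) = {τ ∈ Gal(L/K₁) | τ β₀ = β₀}`;
* `relIndex_kummer_layer` : `[Gal(L/K₁) : Gal(L/M)] = p`;
* `map_mem_kummer_layer` : every `σ ∈ Gal(L/K₁)` maps `M` into `M`.
-/

set_option autoImplicit false

namespace Fermat.Agent.TW.KumBreak

open IntermediateField

variable {K L : Type*} [Field K] [Field L] [Algebra K L]

theorem exists_not_fixed [FiniteDimensional K L] [IsGalois K L] (K₁ : IntermediateField K L)
    {β₀ : L} (h : β₀ ∉ K₁) : ∃ σ ∈ K₁.fixingSubgroup, σ β₀ ≠ β₀ := by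
  by_contra hcon
  push Not at hcon
  apply h
  rw [← IsGalois.fixedField_fixingSubgroup K₁, IntermediateField.mem_fixedField_iff]
  exact hcon

theorem isPrimitiveRoot_of_pow_eq_one_of_ne_one {p : ℕ} (hp : p.Prime) {z : L}
    (h1 : z ^ p = 1) (hne : z ≠ 1) : IsPrimitiveRoot z p := by
  rw [IsPrimitiveRoot.iff_def]
  refine ⟨h1, fun l hl => ?_⟩
  by_contra hnd
  have hcop : Nat.gcd p l = 1 := (Nat.Prime.coprime_iff_not_dvd hp).mpr hnd
  have := pow_gcd_eq_one.mpr ⟨h1, hl⟩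
  rw [hcop, pow_one] at this
  exact hne this

section Layer

variable (K₁ : IntermediateField K L) {p : ℕ} (hp : p.Prime) {β₀ : L} (hβ₀ : β₀ ≠ 0)
  (hβ₀p : β₀ ^ p ∈ K₁)

include hβ₀ hβ₀p in
theorem div_pow_eq_one {τ : L ≃ₐ[K] L} (hτ : τ ∈ K₁.fixingSubgroup) : (τ β₀ / β₀) ^ p = 1 := by
  rw [div_pow, ← map_pow, (IntermediateField.mem_fixingSubgroup_iff _ _).mp hτ _ hβ₀p]
  exact div_self (pow_ne_zero _ hβ₀)

include hp hβ₀ hβ₀p in
theorem isPrimitiveRoot_div {σ : L ≃ₐ[K] L} (hσ : σ ∈ K₁.fixingSubgroup) (hne : σ β₀ ≠ β₀) :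
    IsPrimitiveRoot (σ β₀ / β₀) p := by
  refine isPrimitiveRoot_of_pow_eq_one_of_ne_one hp (div_pow_eq_one K₁ hβ₀ hβ₀p hσ) ?_
  intro h
  exact hne ((div_eq_one_iff_eq hβ₀).mp h)

variable {ζ : L} (hζ : IsPrimitiveRoot ζ p) (hζ₁ : ζ ∈ K₁)

include hp hβ₀ hβ₀p hζ hζ₁ in
theorem div_mem_of_pow_mem {τ : L ≃ₐ[K] L} (hτ : τ ∈ K₁.fixingSubgroup) : τ β₀ / β₀ ∈ K₁ := by
  have : NeZero p := ⟨hp.ne_zero⟩
  obtain ⟨i, -, hi⟩ := hζ.eq_pow_of_pow_eq_one (div_pow_eq_one K₁ hβ₀ hβ₀p hτ)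
  rw [← hi]
  exact pow_mem hζ₁ i

theorem mem_fixingSubgroup_sup_adjoin_iff (τ : L ≃ₐ[K] L) :
    τ ∈ (K₁ ⊔ K⟮β₀⟯).fixingSubgroup ↔ τ ∈ K₁.fixingSubgroup ∧ τ β₀ = β₀ := by
  rw [fixingSubgroup_sup, Subgroup.mem_inf]
  refine and_congr Iff.rfl ?_
  rw [IntermediateField.mem_fixingSubgroup_iff]
  constructor
  · intro h
    exact h β₀ (mem_adjoin_simple_self K β₀)
  · intro h x hx
    have hle : K⟮β₀⟯ ≤ IntermediateField.fixedField (Subgroup.zpowers τ) := by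
      rw [adjoin_simple_le_iff, IntermediateField.mem_fixedField_iff]
      intro g hg
      obtain ⟨n, rfl⟩ := Subgroup.mem_zpowers_iff.mp hg
      have : ∀ m : ℕ, (τ ^ m) β₀ = β₀ := by
        intro m
        induction m with
        | zero => simp
        | succ m ih => rw [pow_succ, AlgEquiv.mul_apply, h, ih]
      have hinv : ∀ m : ℕ, (τ ^ m)⁻¹ β₀ = β₀ := by
        intro m
        rw [AlgEquiv.aut_inv]
        conv_lhs => rw [← this m]
        exact AlgEquiv.symm_apply_apply _ _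
      rcases Int.eq_nat_or_neg n with ⟨m, rfl | rfl⟩
      · rw [zpow_natCast]; exact this m
      · rw [zpow_neg, zpow_natCast]; exact hinv m
    have := (IntermediateField.mem_fixedField_iff _ _).mp (hle hx) τ (Subgroup.mem_zpowers τ)
    exact this

include hp hβ₀ hβ₀p hζ hζ₁ in
/-- `[Gal(L/K₁) : Gal(L/M)] = p` for the Kummer layer `M = K₁(β₀)`, `β₀ ∉ K₁`. -/
theorem relIndex_kummer_layer {σ : L ≃ₐ[K] L} (hσ : σ ∈ K₁.fixingSubgroup) (hne : σ β₀ ≠ β₀) :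
    ((K₁ ⊔ K⟮β₀⟯).fixingSubgroup).relIndex K₁.fixingSubgroup = p := by
  classical
  have : NeZero p := ⟨hp.ne_zero⟩
  have hdiv0 : ∀ τ : L ≃ₐ[K] L, τ β₀ / β₀ ≠ 0 := fun τ =>
    div_ne_zero ((map_ne_zero τ).mpr hβ₀) hβ₀
  -- the Kummer character
  let φ : ↥K₁.fixingSubgroup →* Lˣ :=
    { toFun := fun τ => Units.mk0 ((τ : L ≃ₐ[K] L) β₀ / β₀) (hdiv0 τ)
      map_one' := by
        apply Units.ext
        simp [div_self hβ₀]
      map_mul' := by
        intro τ₁ τ₂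
        apply Units.ext
        simp only [Units.val_mk0, Units.val_mul, Subgroup.coe_mul, AlgEquiv.mul_apply]
        have h2 : (τ₂ : L ≃ₐ[K] L) β₀ = ((τ₂ : L ≃ₐ[K] L) β₀ / β₀) * β₀ := by field_simp
        have h3 : (τ₁ : L ≃ₐ[K] L) (((τ₂ : L ≃ₐ[K] L) β₀ / β₀) * β₀) =
            ((τ₂ : L ≃ₐ[K] L) β₀ / β₀) * (τ₁ : L ≃ₐ[K] L) β₀ := by
          rw [map_mul]
          congr 1
          exact (IntermediateField.mem_fixingSubgroup_iff _ _).mp τ₁.2 _
            (div_mem_of_pow_mem K₁ hp hβ₀ hβ₀p hζ hζ₁ τ₂.2)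
        rw [h2, h3]
        field_simp }
  have hker : ((K₁ ⊔ K⟮β₀⟯).fixingSubgroup).subgroupOf K₁.fixingSubgroup = φ.ker := by
    ext τ
    rw [Subgroup.mem_subgroupOf, mem_fixingSubgroup_sup_adjoin_iff, MonoidHom.mem_ker]
    constructor
    · rintro ⟨-, h⟩
      apply Units.ext
      simp only [φ, MonoidHom.coe_mk, OneHom.coe_mk, Units.val_mk0, Units.val_one]
      rw [h, div_self hβ₀]
    · intro h
      refine ⟨τ.2, ?_⟩
      have := congrArg Units.val h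
      simp only [φ, MonoidHom.coe_mk, OneHom.coe_mk, Units.val_mk0, Units.val_one] at this
      exact (div_eq_one_iff_eq hβ₀).mp this
  rw [Subgroup.relIndex, hker, Subgroup.index_ker]
  -- the range is a nontrivial subgroup of `μ_p`, which has prime order
  have hrange : φ.range ≤ rootsOfUnity p L := by
    rintro _ ⟨τ, rfl⟩
    rw [mem_rootsOfUnity]
    apply Units.ext
    simp only [φ, MonoidHom.coe_mk, OneHom.coe_mk, Units.val_pow_eq_pow_val, Units.val_mk0,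
      Units.val_one]
    exact div_pow_eq_one K₁ hβ₀ hβ₀p τ.2
  have hcard : Nat.card (rootsOfUnity p L) = p := hζ.card_rootsOfUnity
  have hdvd : Nat.card φ.range ∣ p := by
    rw [← hcard]
    have := Subgroup.card_dvd_of_le hrange
    exact this
  rcases (Nat.dvd_prime hp).mp hdvd with h1 | h1
  · exfalso
    have hbot : φ.range = ⊥ := Subgroup.card_eq_one.mp h1
    have hmem : φ ⟨σ, hσ⟩ ∈ φ.range := ⟨_, rfl⟩
    rw [hbot, Subgroup.mem_bot] at hmem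
    have := congrArg Units.val hmem
    simp only [φ, MonoidHom.coe_mk, OneHom.coe_mk, Units.val_mk0, Units.val_one] at this
    exact hne ((div_eq_one_iff_eq hβ₀).mp this)
  · exact h1

include hp hβ₀ hβ₀p hζ hζ₁ in
/-- Elements of `Gal(L/K₁)` map the Kummer layer `M = K₁(β₀)` into itself. -/
theorem map_mem_kummer_layer {σ : L ≃ₐ[K] L} (hσ : σ ∈ K₁.fixingSubgroup) {x : L}
    (hx : x ∈ K₁ ⊔ K⟮β₀⟯) : σ x ∈ K₁ ⊔ K⟮β₀⟯ := by
  have hmap : (K₁ ⊔ K⟮β₀⟯).map (σ : L →ₐ[K] L) ≤ K₁ ⊔ K⟮β₀⟯ := by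
    rw [IntermediateField.map_sup]
    refine sup_le ?_ ?_
    · refine le_trans ?_ le_sup_left
      rintro _ ⟨y, hy, rfl⟩
      have : σ y = y := (IntermediateField.mem_fixingSubgroup_iff _ _).mp hσ y hy
      change σ y ∈ K₁
      rw [this]; exact hy
    · rw [IntermediateField.adjoin_map, Set.image_singleton, adjoin_simple_le_iff]
      have h1 : (σ : L →ₐ[K] L) β₀ = (σ β₀ / β₀) * β₀ := by
        change σ β₀ = _
        field_simp
      rw [h1]
      exact (K₁ ⊔ K⟮β₀⟯).mul_mem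
        (le_sup_left (a := K₁) (div_mem_of_pow_mem K₁ hp hβ₀ hβ₀p hζ hζ₁ hσ))
        (le_sup_right (a := K₁) (mem_adjoin_simple_self K β₀))
  exact hmap ⟨x, hx, rfl⟩

end Layer

end Fermat.Agent.TW.KumBreak
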