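import Fermat.Agent.TW.KumBreak.Tower
import Fermat.Agent.TW.KumBreak.SeamKummer
import Fermat.Agent.TW.Ram.Packaged

/-!
# Program G / F3 seam (A5), step (S1): the Kummer radical of a `p`-th power over a totally ramified
Fontaine-bounded Galois extension is allowed

Layer-B block `(O, K, L)`, `L / K` finite Galois and totally ramified, `p` a uniformiser of `O`,
`FontainePAbove O K L p p (p - 1)`.  For an intermediate field `K₁ ∋ ζ_p` and `β₀ ∈ L^×` with
`β₀ ^ p ∈ K₁` we get `β₀ ^ p = c ^ p * (1 + p * a)` with `c ∈ K₁^×`, `a ∈ K₁` integral over `O`.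

* `kummer_out_intermediate` : `kummer_out_tower` for a pair of intermediate fields `K₁ ≤ M` of `L`
  (all data given as elements of `L` with membership);
* `allowed_of_pow_mem_totRam` : the statement above.
-/

set_option autoImplicit false
set_option linter.style.haveILetI false
set_option linter.unusedSectionVars false

open IsLocalRing Module
open IsDiscreteValuationRing hiding maximalIdeal

namespace Fermat.Agent.TW.KumBreak

open Fermat.Agent.CFT Fermat.Agent.TW.Ram IntermediateField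

variable (O K : Type) [CommRing O] [IsDomain O] [IsDiscreteValuationRing O]
  [IsAdicComplete (maximalIdeal O) O]
  [Field K] [Algebra O K] [IsFractionRing O K] [CharZero K]
  (L : Type) [Field L] [Algebra K L] [FiniteDimensional K L] [Algebra O L] [IsScalarTower O K L]

/-- **(OUT) for a pair of intermediate fields** `K₁ ≤ M` of `L`. -/
theorem kummer_out_intermediate [Finite (ResidueField O)] (K₁ M : IntermediateField K L)
    (hle : K₁ ≤ M)
    [IsDiscreteValuationRing (integralClosure O K₁)] [IsFractionRing (integralClosure O K₁) K₁]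
    [IsDiscreteValuationRing (integralClosure O M)] [IsFractionRing (integralClosure O M) M]
    {p : ℕ} (hp : p.Prime) (hdeg : finrank K M = finrank K K₁ * p)
    (he : ramIdx O M = ramIdx O K₁ * p) (hpO : (p : O) ∈ maximalIdeal O)
    (σ : L ≃ₐ[K] L) (hσ : σ ∈ K₁.fixingSubgroup) (hσM : ∀ x ∈ M, σ x ∈ M)
    {ζ : L} (hζ : IsPrimitiveRoot ζ p) (hζ₁ : ζ ∈ K₁) {α : L} (hαM : α ∈ M)
    {w : L} (hw : w ≠ 0) (hw₁ : w ∈ K₁) (hα : α ^ p = w) (hσα : σ α = ζ * α)
    {ϖ : integralClosure O M} (hϖ : Irreducible ϖ) (y : M) (hy : σ ((ϖ : M) : L) = (y : L))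
    (hbreak : ((p : ℤ) - 1) * (dvrOrd (integralClosure O M) M (y - (ϖ : M)) - 1) ≤
      dvrOrd (integralClosure O K₁) K₁ ((p : ℕ) : K₁)) :
    ∃ c a : L, c ∈ K₁ ∧ c ≠ 0 ∧ a ∈ K₁ ∧ IsIntegral O a ∧ w = c ^ p * (1 + (p : L) * a) := by
  letI alg : Algebra K₁ M := (IntermediateField.inclusion hle).toRingHom.toAlgebra
  have halg : ∀ x : K₁, ((algebraMap K₁ M x : M) : L) = (x : L) := fun x => rfl
  haveI hst : IsScalarTower K K₁ M := IsScalarTower.of_algebraMap_eq (fun x => rfl)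
  haveI hfd : FiniteDimensional K₁ M := Module.Finite.of_restrictScalars_finite K K₁ M
  -- degree
  have hdeg' : finrank K₁ M = p := by
    have h1 := finrank_mul_finrank K K₁ M
    rw [hdeg] at h1
    exact Nat.eq_of_mul_eq_mul_left finrank_pos h1
  -- the restriction of `σ` to `M`
  let f : M →ₐ[K₁] M :=
    { toFun := fun x => ⟨σ (x : L), hσM _ x.2⟩
      map_one' := Subtype.ext (by simp)
      map_mul' := fun a b => Subtype.ext (by simp)
      map_zero' := Subtype.ext (by simp)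
      map_add' := fun a b => Subtype.ext (by simp)
      commutes' := fun r => Subtype.ext
        ((IntermediateField.mem_fixingSubgroup_iff _ _).mp hσ _ r.2) }
  have hfbij : Function.Bijective f := Algebra.IsAlgebraic.algHom_bijective f
  let s : M ≃ₐ[K₁] M := AlgEquiv.ofBijective f hfbij
  have hs : ∀ x : M, ((s x : M) : L) = σ (x : L) := fun x => rfl
  -- the data, as elements of `K₁` and `M`
  have hζ' : IsPrimitiveRoot (⟨ζ, hζ₁⟩ : K₁) p :=
    IsPrimitiveRoot.of_map_of_injective (f := algebraMap K₁ L) hζ (algebraMap K₁ L).injective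
  have hw' : (⟨w, hw₁⟩ : K₁) ≠ 0 := fun h => hw (congrArg Subtype.val h)
  have hα' : (⟨α, hαM⟩ : M) ^ p = algebraMap K₁ M ⟨w, hw₁⟩ := Subtype.ext (by
    rw [halg]
    exact hα)
  have hσα' : s ⟨α, hαM⟩ = algebraMap K₁ M ⟨ζ, hζ₁⟩ * ⟨α, hαM⟩ := Subtype.ext (by
    rw [hs, MulMemClass.coe_mul, halg]
    exact hσα)
  have hsy : s (ϖ : M) = y := Subtype.ext (by rw [hs]; exact hy)
  have hbreak' : ((p : ℤ) - 1) * (dvrOrd (integralClosure O M) M (s (ϖ : M) - (ϖ : M)) - 1) ≤
      dvrOrd (integralClosure O K₁) K₁ (p : K₁) := by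
    rw [hsy]
    exact hbreak
  obtain ⟨c, a, hc, hwca⟩ := kummer_out_tower O K K₁ M hp hdeg' he hpO s hζ' hw' hα' hσα' hϖ hbreak'
  refine ⟨(c : L), ((a : K₁) : L), c.2, fun h => hc (Subtype.ext h), (a : K₁).2, ?_, ?_⟩
  · have h1 : IsIntegral O (a : K₁) := a.2
    haveI := tower_isScalarTower_O_L_M O K K₁ L
    exact h1.map (IsScalarTower.toAlgHom O K₁ L)
  · have := congrArg (Subtype.val : K₁ → L) hwca
    simpa using this

variable [IsGalois K L] [IsDiscreteValuationRing (integralClosure O L)]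
  [IsFractionRing (integralClosure O L) L]

/-- **(A5) seam, step (S1)**: totally ramified base. -/
theorem allowed_of_pow_mem_totRam [Finite (ResidueField O)]
    (htr : ramIdx O L = Module.finrank K L) {p : ℕ} (hp : p.Prime)
    (hpirr : Irreducible ((p : ℕ) : O)) (hP : FontainePAbove O K L ((p : ℕ) : O) p (p - 1))
    (K₁ : IntermediateField K L) {ζ : L} (hζ : IsPrimitiveRoot ζ p) (hζ₁ : ζ ∈ K₁)
    {β₀ : L} (hβ₀ : β₀ ≠ 0) (hβ₀p : β₀ ^ p ∈ K₁) :
    ∃ c a : L, c ∈ K₁ ∧ c ≠ 0 ∧ a ∈ K₁ ∧ IsIntegral O a ∧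
      β₀ ^ p = c ^ p * (1 + (p : L) * a) := by
  by_cases hmem : β₀ ∈ K₁
  · exact ⟨β₀, 0, hmem, hβ₀, K₁.zero_mem, isIntegral_zero, by simp⟩
  -- the Kummer layer
  obtain ⟨σ, hσ, hne⟩ := exists_not_fixed K₁ hmem
  have hζ' : IsPrimitiveRoot (σ β₀ / β₀) p := isPrimitiveRoot_div K₁ hp hβ₀ hβ₀p hσ hne
  have hζ'mem : σ β₀ / β₀ ∈ K₁ := div_mem_of_pow_mem K₁ hp hβ₀ hβ₀p hζ hζ₁ hσ
  obtain ⟨M, hM⟩ : ∃ M : IntermediateField K L, M = K₁ ⊔ K⟮β₀⟯ := ⟨_, rfl⟩
  have hle : K₁ ≤ M := hM ▸ le_sup_left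
  have hβ₀M : β₀ ∈ M := by
    rw [hM]
    exact (le_sup_right : K⟮β₀⟯ ≤ K₁ ⊔ K⟮β₀⟯) (mem_adjoin_simple_self K β₀)
  have hidx : (M.fixingSubgroup).relIndex K₁.fixingSubgroup = p := by
    rw [hM]
    exact relIndex_kummer_layer K₁ hp hβ₀ hβ₀p hζ hζ₁ hσ hne
  have hσM : σ ∉ M.fixingSubgroup := by
    rw [hM, mem_fixingSubgroup_sup_adjoin_iff]
    exact fun h => hne h.2
  have hmap : ∀ x ∈ M, σ x ∈ M := by
    intro x hx
    rw [hM] at hx ⊢
    exact map_mem_kummer_layer K₁ hp hβ₀ hβ₀p hζ hζ₁ hσ hx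
  -- instances
  haveI := intRing_isDiscreteValuationRing O K K₁
  haveI := intRing_isFractionRing O K K₁
  haveI := intRing_isDiscreteValuationRing O K M
  haveI := intRing_isFractionRing O K M
  -- uniformiser of `M` and the packaged break bound
  obtain ⟨π, hπ⟩ := IsDiscreteValuationRing.exists_irreducible (integralClosure O M)
  have hbr := break_le_of_fontainePAbove O K L htr hpirr hp hP K₁ M hle hidx hσ hσM hπ
    ⟨σ ((π : M) : L), hmap _ (π : M).2⟩ rfl
  have hrhs : dvrOrd (integralClosure O K₁) K₁ ((p : ℕ) : K₁) = ramIdx O K₁ := by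
    have := dvrOrd_algebraMap_irreducible O K K₁ hpirr
    rwa [map_natCast] at this
  -- ramification index and degree of `M / K₁`
  have he : ramIdx O M = ramIdx O K₁ * p := by
    have := relIndex_fixingSubgroup_mul_ramIdx O K L htr K₁ M hle
    rw [hidx] at this
    rw [← this, mul_comm]
  have hdeg : finrank K M = finrank K K₁ * p := by
    rw [← ramIdx_bot_eq_finrank O K L htr M, ← ramIdx_bot_eq_finrank O K L htr K₁]
    exact he
  have hpO : ((p : ℕ) : O) ∈ maximalIdeal O := by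
    rw [mem_maximalIdeal, mem_nonunits_iff]
    exact hpirr.not_isUnit
  have hσβ : σ β₀ = (σ β₀ / β₀) * β₀ := by field_simp
  exact kummer_out_intermediate O K L K₁ M hle hp hdeg he hpO σ hσ hmap hζ' hζ'mem hβ₀M
    (pow_ne_zero p hβ₀) hβ₀p rfl hσβ hπ _ rfl (by rw [hrhs]; exact hbr)

end Fermat.Agent.TW.KumBreak
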