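import Fermat.Agent.TW.Ram.Packaged
import Fermat.Agent.TW.KumBreak.SeamTotRam
import Fermat.Agent.TW.KumBreak.SeamDescent

/-!
# Program G / (A5) seam, step (S3): assembly over a general base

`L / K` finite Galois (Layer B, finite residue field), `(P_m)` for all `m > p / (p - 1)`,
`E` an intermediate field containing a primitive `p`-th root of unity, `β₀ ∈ Lˣ` with `β₀ ^ p ∈ E`.
Then `β₀ ^ p ∈ (1 + p O_E) · E^{× p}`.

Proof: `K₀` := the maximal unramified subextension (`exists_totRam_base`); (S1) over the totally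
ramified base `(integralClosure O K₀, K₀, L)` with `K₁ := K₀ ⊔ E`; then the unramified descent
(S2) from `K₀ ⊔ E` to `E`.
-/

set_option autoImplicit false
set_option linter.unusedSectionVars false
set_option linter.style.haveILetI false

open IsLocalRing Module Fermat.Agent.CFT Fermat.Agent.TW.Ram

namespace Fermat.Agent.TW.KumBreak

variable (O K : Type) [CommRing O] [IsDomain O] [IsDiscreteValuationRing O]
  [IsAdicComplete (maximalIdeal O) O]
  [Field K] [Algebra O K] [IsFractionRing O K] [CharZero K]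
  (L : Type) [Field L] [Algebra K L] [FiniteDimensional K L] [Algebra O L] [IsScalarTower O K L]

/-- **(S3).** -/
theorem allowed_of_pow_mem [IsGalois K L] [Finite (ResidueField O)] {p : ℕ} (hp : p.Prime)
    (hpirr : Irreducible ((p : ℕ) : O)) (hP : FontainePAbove O K L ((p : ℕ) : O) p (p - 1))
    (E : IntermediateField K L) {ζ : L} (hζ : IsPrimitiveRoot ζ p) (hζE : ζ ∈ E) {β₀ : L}
    (hβ₀ : β₀ ≠ 0) (hβ₀p : β₀ ^ p ∈ E) :
    ∃ c a : L, c ∈ E ∧ c ≠ 0 ∧ a ∈ E ∧ IsIntegral O a ∧ β₀ ^ p = c ^ p * (1 + (p : L) * a) := by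
  obtain ⟨K₀, hunr, -, htr, hϖ₀, hP₀⟩ := exists_totRam_base O K L hpirr hP
  -- Layer-B instances of the new base `(integralClosure O K₀, K₀, L)`
  haveI := intRing_isDiscreteValuationRing O K K₀
  haveI := intRing_isFractionRing O K K₀
  haveI := intRing_isAdicComplete O K K₀
  haveI := tower_charZero K K₀
  haveI := intRing_finite_residueField O K K₀
  haveI := intRing_isDiscreteValuationRing (integralClosure O K₀) K₀ L
  haveI := intRing_isFractionRing (integralClosure O K₀) K₀ L
  have hcast : algebraMap O (integralClosure O K₀) ((p : ℕ) : O) =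
      ((p : ℕ) : integralClosure O K₀) := map_natCast _ _
  rw [hcast] at hϖ₀ hP₀
  -- (S1) over the totally ramified base, `K₁ := K₀ ⊔ E`
  set K₁ : IntermediateField K₀ L :=
    IntermediateField.extendScalars (le_sup_left : K₀ ≤ K₀ ⊔ E) with hK₁
  have hmem : ∀ x : L, x ∈ K₁ ↔ x ∈ K₀ ⊔ E := fun x => IntermediateField.mem_extendScalars _
  have hEle : E ≤ K₀ ⊔ E := le_sup_right
  obtain ⟨c, a, hc, hc0, ha, haint, hca⟩ :=
    allowed_of_pow_mem_totRam (integralClosure O K₀) K₀ L htr hp hϖ₀ hP₀ K₁ hζ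
      ((hmem ζ).mpr (hEle hζE)) hβ₀ ((hmem _).mpr (hEle hβ₀p))
  -- integrality over `O`
  have haint' : IsIntegral O a := by
    haveI := tower_isScalarTower_O_L_M O K K₀ L
    haveI := tower_isScalarTower_O_intRing_M O K K₀ L
    haveI := intRing_isIntegral O K₀
    exact isIntegral_trans (R := O) (A := integralClosure O K₀) a haint
  -- (S2): unramified descent from `K₀ ⊔ E` to `E`
  have hpO : ((p : ℕ) : O) ∈ maximalIdeal O := by
    rw [mem_maximalIdeal, mem_nonunits_iff]
    exact hpirr.not_isUnit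
  exact allowed_descent_unram O K L hp hpO K₀ E hunr hβ₀p (pow_ne_zero _ hβ₀)
    ⟨c, a, (hmem c).mp hc, hc0, (hmem a).mp ha, haint', hca⟩

end Fermat.Agent.TW.KumBreak
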