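import Fermat.Agent.TW.KumBreak.LayerB
import Fermat.Agent.CFT.Local.ExtDVRTower

/-!
# Program G / F3-(f1): (OUT) in the tower vocabulary of Layer B

`O` complete DVR with finite residue field, `K = Frac O` of characteristic `0`, `K ⊆ L ⊆ M` finite
extensions (`L` plays the tame field `K₁`), `M/L` totally ramified of degree `p`.  All valuations are
those of `integralClosure O L`, `integralClosure O M` (the shape of the packaged (e) statement).
-/

set_option autoImplicit false

open IsLocalRing
open IsDiscreteValuationRing hiding maximalIdeal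

namespace Fermat.Agent.TW.KumBreak

open Fermat.Agent.CFT

variable (O K : Type) [CommRing O] [IsDomain O] [IsDiscreteValuationRing O]
  [IsAdicComplete (maximalIdeal O) O]
  [Field K] [Algebra O K] [IsFractionRing O K] [CharZero K]
  (L : Type) [Field L] [Algebra K L] [FiniteDimensional K L] [Algebra O L] [IsScalarTower O K L]
  (M : Type) [Field M] [Algebra L M] [FiniteDimensional L M] [Algebra K M] [IsScalarTower K L M]
  [Algebra O M] [IsScalarTower O K M]

include K in
/-- **(OUT), tower form.** -/
theorem kummer_out_tower [Finite (ResidueField O)]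
    [IsDiscreteValuationRing (integralClosure O L)] [IsFractionRing (integralClosure O L) L]
    [IsDiscreteValuationRing (integralClosure O M)] [IsFractionRing (integralClosure O M) M]
    {p : ℕ} (hp : p.Prime) (hdeg : Module.finrank L M = p)
    (he : ramIdx O M = ramIdx O L * p) (hpO : (p : O) ∈ maximalIdeal O)
    (σ : M ≃ₐ[L] M) {ζ : L} (hζ : IsPrimitiveRoot ζ p) {α : M} {w : L} (hw : w ≠ 0)
    (hα : α ^ p = algebraMap L M w) (hσ : σ α = algebraMap L M ζ * α)
    {ϖ : integralClosure O M} (hϖ : Irreducible ϖ)
    (hbreak : ((p : ℤ) - 1) * (dvrOrd (integralClosure O M) M (σ (ϖ : M) - (ϖ : M)) - 1) ≤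
      dvrOrd (integralClosure O L) L (p : L)) :
    ∃ (c : L) (a : integralClosure O L), c ≠ 0 ∧ w = c ^ p * (1 + (p : L) * (a : L)) := by
  have : FiniteDimensional K M := FiniteDimensional.trans K L M
  have hst := tower_isScalarTower_O_L_M O K L M
  have hcz := tower_charZero K L
  have hcomp := intRing_isAdicComplete O K L
  have hfinres := intRing_finite_residueField O K L
  have hdvr1 := intRing_isDiscreteValuationRing (integralClosure O L) L M
  have hfr1 := intRing_isFractionRing (integralClosure O L) L M
  -- ramification index of `M` over `L`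
  have he1 : ramIdx (integralClosure O L) M = p := by
    have h1 := ramIdx_tower O K L M
    rw [he] at h1
    exact (Nat.eq_of_mul_eq_mul_left (ramIdx_pos O K L) h1).symm
  have hpO1 : ((p : ℕ) : integralClosure O L) ∈ maximalIdeal (integralClosure O L) := by
    have hloc := intRing_isLocalHom O K L
    have : ((p : ℕ) : integralClosure O L) = algebraMap O (integralClosure O L) (p : O) := by simp
    rw [this, mem_maximalIdeal, mem_nonunits_iff]
    rw [mem_maximalIdeal, mem_nonunits_iff] at hpO
    exact fun hu => hpO (isUnit_of_map_unit (algebraMap O (integralClosure O L)) _ hu)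
  -- transport the uniformiser
  obtain ⟨ϖ', hϖ'⟩ : ∃ ϖ' : integralClosure (integralClosure O L) M,
      ϖ' = (intRingTowerEquiv O K L M).symm ϖ := ⟨_, rfl⟩
  have hϖ'irr : Irreducible ϖ' := by
    rw [hϖ']
    exact (MulEquiv.irreducible_iff (intRingTowerEquiv O K L M).symm.toMulEquiv).mpr hϖ
  have hϖ'coe : (ϖ' : M) = (ϖ : M) := by rw [hϖ']; rfl
  have hbreak' : ((p : ℤ) - 1) * (dvrOrd (integralClosure (integralClosure O L) M) M
      (σ (ϖ' : M) - (ϖ' : M)) - 1) ≤ dvrOrd (integralClosure O L) L (p : L) := by
    rw [hϖ'coe, dvrOrd_tower_eq O K L M]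
    exact hbreak
  exact kummer_out_field (integralClosure O L) L M hp hdeg he1 hpO1 σ hζ hw hα hσ hϖ'irr hbreak'

end Fermat.Agent.TW.KumBreak
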